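import Mathlib
import Fermat.Agent.SS.Geo.Fixed
import Fermat.Agent.SS.Dict.Aut
import Fermat.Agent.SS.Dict.Rational

/-!
# PROGRAM MR (S44), block `mrg` (owner helper9) : `F_E(N)` over `F_{E'}(N)`, `E' = E ⊓ ℚ̄^H`
(prefix `mrgf`)

The generalisation of `SS/Geo/Fixed.lean` + `SQ/Descend/Fixed.lean` from the inertia group of `𝔸`
to an ARBITRARY subgroup `H ≤ G_ℚ` : `E / ℚ` finite normal, `E' = mrgfE0 H E = E ⊓ fixedField H`,
`ι = mrgfIota H E N : F_{E'}(N) → F_E(N)`.

* `mrgf_exists_primitive` : `E = E'[θ]`;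
* `mrgf_gen` : `F_E(N) = ι(F_{E'}(N))[θ]`;
* `mrgf_fixed` : an element of `F_E(N)` fixed by the image of `H` in `Gal(E/ℚ)` comes from
  `F_{E'}(N)`.
-/

set_option autoImplicit false
set_option linter.unusedSectionVars false
set_option linter.unusedVariables false
set_option linter.style.haveILetI false
set_option synthInstance.maxHeartbeats 400000

noncomputable section

namespace Fermat.Agent.MR

open Polynomial ModularCurve AlgebraicCurve IntermediateField Fermat.Agent.S18 Fermat.Agent.SS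

local notation "Qb" => AlgebraicClosure ℚ

variable (H : Subgroup (Qb ≃ₐ[ℚ] Qb)) (E : IntermediateField ℚ Qb)

/-- the elements of `E` fixed by `H`. -/
def mrgfE0 : IntermediateField ℚ Qb := E ⊓ IntermediateField.fixedField H

theorem mem_mrgfE0 {x : Qb} :
    x ∈ mrgfE0 H E ↔ x ∈ E ∧ ∀ σ ∈ H, σ x = x := by
  unfold mrgfE0
  rw [IntermediateField.mem_inf, IntermediateField.mem_fixedField_iff]

theorem mrgfE0_le : mrgfE0 H E ≤ E := inf_le_left

instance mrgfE0_finiteDimensional [FiniteDimensional ℚ E] : FiniteDimensional ℚ (mrgfE0 H E) := by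
  have h : mrgfE0 H E ≤ E := mrgfE0_le H E
  exact FiniteDimensional.of_injective (IntermediateField.inclusion h).toLinearMap
    (IntermediateField.inclusion h).injective

/-- the inclusion `E₀ → E` -/
def mrgfIncl : mrgfE0 H E →+* E := (IntermediateField.inclusion (mrgfE0_le H E)).toRingHom

theorem mrgfIncl_coe (x : mrgfE0 H E) : ((mrgfIncl H E x : E) : Qb) = (x : Qb) := rfl

theorem mrgfIncl_injective : Function.Injective (mrgfIncl H E) := (mrgfIncl H E).injective

/-- the elements of `E₀` are fixed by inertia -/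
theorem mrgf_restrict_incl [Normal ℚ E] {σ : Qb ≃ₐ[ℚ] Qb} (hσ : σ ∈ H)
    (x : mrgfE0 H E) : σ.restrictNormal E (mrgfIncl H E x) = mrgfIncl H E x := by
  apply Subtype.ext
  have h1 : ((σ.restrictNormal E (mrgfIncl H E x) : E) : Qb) = σ ((mrgfIncl H E x : E) : Qb) :=
    AlgEquiv.restrictNormal_commutes σ E _
  rw [h1, mrgfIncl_coe]
  exact ((mem_mrgfE0 H E).mp x.2).2 σ hσ

/-- an element of `E` fixed by inertia comes from `E₀` -/
theorem mrgf_exists_of_fixed [Normal ℚ E] (x : E)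
    (hx : ∀ σ ∈ H, σ.restrictNormal E x = x) :
    ∃ x₀ : mrgfE0 H E, mrgfIncl H E x₀ = x := by
  refine ⟨⟨(x : Qb), (mem_mrgfE0 H E).mpr ⟨x.2, fun σ hσ => ?_⟩⟩, Subtype.ext rfl⟩
  have h1 : ((σ.restrictNormal E x : E) : Qb) = σ (x : Qb) :=
    AlgEquiv.restrictNormal_commutes σ E _
  rw [← h1, hx σ hσ]

/-! ### the coefficientwise base change `F_{E₀}(N) → F_E(N)` -/

variable (N : ℕ)

/-- coefficientwise base change `F_{E₀}(N) → F_E(N)` -/
def mrgfIota : modularFunctionFieldFullC (mrgfE0 H E) N →+* modularFunctionFieldFullC E N where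
  toFun x := ⟨coeffMap (mrgfIncl H E) (x : LaurentSeries (mrgfE0 H E)),
    s18dd_coeffMap_mem_full _ N x.2⟩
  map_one' := Subtype.ext (map_one (coeffMap (mrgfIncl H E)))
  map_mul' x y := Subtype.ext (map_mul (coeffMap (mrgfIncl H E)) _ _)
  map_zero' := Subtype.ext (map_zero (coeffMap (mrgfIncl H E)))
  map_add' x y := Subtype.ext (map_add (coeffMap (mrgfIncl H E)) _ _)

@[simp]
theorem mrgfIota_coe (x : modularFunctionFieldFullC (mrgfE0 H E) N) :
    ((mrgfIota H E N x : modularFunctionFieldFullC E N) : LaurentSeries E) =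
      coeffMap (mrgfIncl H E) (x : LaurentSeries (mrgfE0 H E)) := rfl

theorem mrgfIota_injective : Function.Injective (mrgfIota H E N) := (mrgfIota H E N).injective

theorem mrgfIota_algebraMap (c : mrgfE0 H E) :
    mrgfIota H E N (algebraMap (mrgfE0 H E) (modularFunctionFieldFullC (mrgfE0 H E) N) c) =
      algebraMap E (modularFunctionFieldFullC E N) (mrgfIncl H E c) := by
  apply Subtype.ext
  show coeffMap (mrgfIncl H E) (algebraMap (mrgfE0 H E) (LaurentSeries (mrgfE0 H E)) c) =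
    algebraMap E (LaurentSeries E) (mrgfIncl H E c)
  rw [s18dd_coeffMap_algebraMap]

/-- `E = E₀[θ]` with `θ` a root of a monic separable polynomial over `E₀`. -/
theorem mrgf_exists_primitive [FiniteDimensional ℚ E] :
    ∃ (θ : E) (p : (mrgfE0 H E)[X]), p.Monic ∧ p.Separable ∧
      p.eval₂ (mrgfIncl H E) θ = 0 ∧
      ∀ x : E, ∃ P : (mrgfE0 H E)[X], x = P.eval₂ (mrgfIncl H E) θ := by
  letI : Algebra (mrgfE0 H E) E := (mrgfIncl H E).toAlgebra
  haveI : IsScalarTower ℚ (mrgfE0 H E) E := IsScalarTower.of_algebraMap_eq fun x => rfl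
  haveI : FiniteDimensional (mrgfE0 H E) E := Module.Finite.of_restrictScalars_finite ℚ _ _
  obtain ⟨θ, hθ⟩ := Field.exists_primitive_element (mrgfE0 H E) E
  have hint : IsIntegral (mrgfE0 H E) θ := Algebra.IsIntegral.isIntegral θ
  refine ⟨θ, minpoly (mrgfE0 H E) θ, minpoly.monic hint,
    Algebra.IsSeparable.isSeparable (mrgfE0 H E) θ, ?_, fun x => ?_⟩
  · have := minpoly.aeval (mrgfE0 H E) θ
    rwa [aeval_def] at this
  · have hx : x ∈ (mrgfE0 H E)⟮θ⟯.toSubalgebra := by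
      rw [hθ]; exact Algebra.mem_top
    rw [adjoin_simple_toSubalgebra_of_isAlgebraic hint.isAlgebraic,
      Algebra.adjoin_singleton_eq_range_aeval] at hx
    obtain ⟨P, hP⟩ := hx
    refine ⟨P, ?_⟩
    rw [← hP]
    exact aeval_def _ _

variable (N : ℕ) [NeZero N]

/-- the two structure maps to `F_E(N)` agree on `E₀`. -/
theorem mrgf_comp_eq :
    (mrgfIota H E N).comp (algebraMap (mrgfE0 H E) (modularFunctionFieldFullC (mrgfE0 H E) N)) =
      (algebraMap E (modularFunctionFieldFullC E N)).comp (mrgfIncl H E) :=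
  RingHom.ext fun c => mrgfIota_algebraMap H E N c

/-- `F_E(N) = ι(F_{E₀}(N))[θ]`. -/
theorem mrgf_gen (θ : E) (p : (mrgfE0 H E)[X]) (hpm : p.Monic)
    (hpθ : p.eval₂ (mrgfIncl H E) θ = 0)
    (hθ : ∀ x : E, ∃ P : (mrgfE0 H E)[X], x = P.eval₂ (mrgfIncl H E) θ)
    (y : modularFunctionFieldFullC E N) :
    ∃ P : (modularFunctionFieldFullC (mrgfE0 H E) N)[X],
      y = P.eval₂ (mrgfIota H E N) (algebraMap E (modularFunctionFieldFullC E N) θ) := by
  letI : Algebra (modularFunctionFieldFullC (mrgfE0 H E) N) (modularFunctionFieldFullC E N) :=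
    (mrgfIota H E N).toAlgebra
  obtain ⟨θ', hθ'⟩ : ∃ t, t = algebraMap E (modularFunctionFieldFullC E N) θ := ⟨_, rfl⟩
  have hcomp : (algebraMap (modularFunctionFieldFullC (mrgfE0 H E) N)
      (modularFunctionFieldFullC E N)).comp
        (algebraMap (mrgfE0 H E) (modularFunctionFieldFullC (mrgfE0 H E) N)) =
      (algebraMap E (modularFunctionFieldFullC E N)).comp (mrgfIncl H E) := mrgf_comp_eq H E N
  have hconst : ∀ P : (mrgfE0 H E)[X],
      algebraMap E (modularFunctionFieldFullC E N) (P.eval₂ (mrgfIncl H E) θ) =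
        aeval θ' (P.map (algebraMap (mrgfE0 H E) (modularFunctionFieldFullC (mrgfE0 H E) N))) := by
    intro P
    rw [aeval_def, eval₂_map, hcomp, Polynomial.hom_eval₂, hθ']
  have hint : IsIntegral (modularFunctionFieldFullC (mrgfE0 H E) N) θ' := by
    refine ⟨p.map (algebraMap (mrgfE0 H E) (modularFunctionFieldFullC (mrgfE0 H E) N)),
      hpm.map _, ?_⟩
    have h := hconst p
    rw [hpθ, map_zero, aeval_def] at h
    exact h.symm
  have hmemθ : ∀ P : (modularFunctionFieldFullC (mrgfE0 H E) N)[X],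
      aeval θ' P ∈ (modularFunctionFieldFullC (mrgfE0 H E) N)⟮θ'⟯ := by
    intro P
    have h1 : aeval θ' P ∈ Algebra.adjoin (modularFunctionFieldFullC (mrgfE0 H E) N) {θ'} :=
      Polynomial.aeval_mem_adjoin_singleton _ _
    exact IntermediateField.algebra_adjoin_le_adjoin _ _ h1
  have key : ∀ z : LaurentSeries E, z ∈ modularFunctionFieldFullC E N →
      ∃ t ∈ (modularFunctionFieldFullC (mrgfE0 H E) N)⟮θ'⟯, (t : LaurentSeries E) = z := by
    intro z hz
    have hz' : z ∈ Subfield.closure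
        (Set.range (algebraMap E (LaurentSeries E)) ∪ divisorExpansionsC E N) := hz
    have hle : Subfield.closure
        (Set.range (algebraMap E (LaurentSeries E)) ∪ divisorExpansionsC E N) ≤
        ((modularFunctionFieldFullC (mrgfE0 H E) N)⟮θ'⟯.toSubfield).map
          ((modularFunctionFieldFullC E N).val : modularFunctionFieldFullC E N →+*
            LaurentSeries E) := by
      rw [Subfield.closure_le]
      rintro w (⟨c, rfl⟩ | ⟨d, hd, hdN, rfl⟩)
      · obtain ⟨P, hP⟩ := hθ c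
        refine ⟨algebraMap E (modularFunctionFieldFullC E N) c, ?_, rfl⟩
        rw [hP, hconst]
        exact hmemθ _
      · refine ⟨algebraMap (modularFunctionFieldFullC (mrgfE0 H E) N)
          (modularFunctionFieldFullC E N)
          ⟨qExpand (mrgfE0 H E) d (jqModC (mrgfE0 H E)), jqModCd_mem_full (mrgfE0 H E) N hdN⟩,
          IntermediateField.algebraMap_mem _ _, ?_⟩
        show coeffMap (mrgfIncl H E) (qExpand (mrgfE0 H E) d (jqModC (mrgfE0 H E))) =
          qExpand E d (jqModC E)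
        rw [coeffMap_qExpand, coeffMap_jqModC]
    obtain ⟨t, ht, htz⟩ := hle hz'
    exact ⟨t, ht, htz⟩
  obtain ⟨t, ht, hty⟩ := key y.1 y.2
  have hty' : t = y := Subtype.ext hty
  rw [hty'] at ht
  have hy : y ∈ ((modularFunctionFieldFullC (mrgfE0 H E) N)⟮θ'⟯).toSubalgebra := ht
  rw [adjoin_simple_toSubalgebra_of_isAlgebraic hint.isAlgebraic,
    Algebra.adjoin_singleton_eq_range_aeval] at hy
  obtain ⟨P, hP⟩ := hy
  refine ⟨P, ?_⟩
  rw [← hP, ← hθ']
  exact aeval_def θ' P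

/-! ### the inertia group in `Gal(E/ℚ)` and its fixed points -/

/-- the image of the inertia group of `𝔸` in `Gal(E/ℚ)`. -/
def mrgfH [Normal ℚ E] : Subgroup (E ≃ₐ[ℚ] E) :=
  (H).map (AlgEquiv.restrictNormalHom E)

theorem mem_mrgfH [Normal ℚ E] {σ : Qb ≃ₐ[ℚ] Qb} (hσ : σ ∈ H) :
    σ.restrictNormal E ∈ mrgfH H E :=
  ⟨σ, hσ, rfl⟩

/-- a constant fixed by the inertia group lies in `E₀`. -/
theorem mrgf_const_of_fixed [Normal ℚ E] (c : E) (hc : ∀ τ ∈ mrgfH H E, τ c = c) :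
    ∃ c₀ : mrgfE0 H E, mrgfIncl H E c₀ = c :=
  mrgf_exists_of_fixed H E c fun σ hσ => hc _ (mem_mrgfH H E hσ)

/-- the inertia group fixes the image of `F_{E₀}(N)` pointwise. -/
theorem mrgf_aut_iota [Normal ℚ E] {τ : E ≃ₐ[ℚ] E} (hτ : τ ∈ mrgfH H E)
    (x : modularFunctionFieldFullC (mrgfE0 H E) N) :
    ssdAutRing E N τ (mrgfIota H E N x) = mrgfIota H E N x := by
  obtain ⟨σ, hσ, rfl⟩ := hτ
  apply Subtype.ext
  show coeffMap ((σ.restrictNormal E : E ≃ₐ[ℚ] E) : E →+* E)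
      (coeffMap (mrgfIncl H E) (x : LaurentSeries (mrgfE0 H E))) =
    coeffMap (mrgfIncl H E) (x : LaurentSeries (mrgfE0 H E))
  rw [coeffMap_coeffMap]
  exact coeffMap_congr (RingHom.ext fun c => mrgf_restrict_incl H E hσ c) _

/-- **AN ELEMENT OF `F_E(N)` FIXED BY THE INERTIA GROUP COMES FROM `F_{E₀}(N)`.** -/
theorem mrgf_fixed [FiniteDimensional ℚ E] [Normal ℚ E] (y : modularFunctionFieldFullC E N)
    (hy : ∀ τ ∈ mrgfH H E, ssdAutRing E N τ y = y) :
    ∃ f : modularFunctionFieldFullC (mrgfE0 H E) N, mrgfIota H E N f = y := by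
  classical
  obtain ⟨θ, p, hpm, -, hpθ, hθ⟩ := mrgf_exists_primitive H E
  obtain ⟨P, hP⟩ := mrgf_gen H E N θ p hpm hpθ hθ y
  haveI : Fintype ↥(mrgfH H E) := Fintype.ofFinite _
  obtain ⟨m, hm⟩ : ∃ m : ℕ, m = Fintype.card ↥(mrgfH H E) := ⟨_, rfl⟩
  have hm0 : m ≠ 0 := hm ▸ Fintype.card_ne_zero
  -- the averaged powers of `θ`
  have hc : ∀ i : ℕ, ∃ c₀ : mrgfE0 H E,
      mrgfIncl H E c₀ = ∑ τ : ↥(mrgfH H E), (τ : E ≃ₐ[ℚ] E) (θ ^ i) := by
    intro i
    apply mrgf_const_of_fixed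
    intro τ' hτ'
    rw [map_sum]
    exact Equiv.sum_comp (Equiv.mulLeft (⟨τ', hτ'⟩ : ↥(mrgfH H E)))
      (fun τ : ↥(mrgfH H E) => (τ : E ≃ₐ[ℚ] E) (θ ^ i))
  choose c₀ hc₀ using hc
  have hτy : ∀ τ : ↥(mrgfH H E), ssdAutRing E N (τ : E ≃ₐ[ℚ] E) y =
      ∑ i ∈ Finset.range (P.natDegree + 1), mrgfIota H E N (P.coeff i) *
        algebraMap E (modularFunctionFieldFullC E N) ((τ : E ≃ₐ[ℚ] E) (θ ^ i)) := by
    intro τ
    conv_lhs => rw [hP]
    rw [eval₂_eq_sum_range, map_sum]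
    refine Finset.sum_congr rfl fun i _ => ?_
    rw [map_mul, mrgf_aut_iota H E N τ.2, ← map_pow, ssdAutRing_algebraMap]
  have hsum : (m : modularFunctionFieldFullC E N) * y =
      ∑ τ : ↥(mrgfH H E), ssdAutRing E N (τ : E ≃ₐ[ℚ] E) y := by
    rw [Finset.sum_congr rfl fun (τ : ↥(mrgfH H E)) _ => hy τ.1 τ.2, Finset.sum_const,
      Finset.card_univ, ← hm, nsmul_eq_mul]
  have hmain : (m : modularFunctionFieldFullC E N) * y =
      mrgfIota H E N (∑ i ∈ Finset.range (P.natDegree + 1), P.coeff i *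
        algebraMap (mrgfE0 H E) (modularFunctionFieldFullC (mrgfE0 H E) N) (c₀ i)) := by
    rw [hsum, Finset.sum_congr rfl fun τ _ => hτy τ, Finset.sum_comm, map_sum]
    refine Finset.sum_congr rfl fun i _ => ?_
    rw [map_mul, mrgfIota_algebraMap, hc₀, map_sum, Finset.mul_sum]
  refine ⟨(m : modularFunctionFieldFullC (mrgfE0 H E) N)⁻¹ *
    ∑ i ∈ Finset.range (P.natDegree + 1), P.coeff i *
      algebraMap (mrgfE0 H E) (modularFunctionFieldFullC (mrgfE0 H E) N) (c₀ i), ?_⟩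
  rw [map_mul, ← hmain, map_inv₀, map_natCast, ← mul_assoc, inv_mul_cancel₀, one_mul]
  exact Nat.cast_ne_zero.2 hm0

end Fermat.Agent.MR
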