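import Mathlib
import Fermat.Agent.TT.Red2.Red2All
import Fermat.Agent.TT.Red2.V2Gal

/-!
# PROGRAM MR (S44), block `mrg` (owner helper9) : GALOIS BOOKKEEPING on `F = F_ℚ̄(M p)` over the
TT ring `𝔸` -- THE LITERAL STATEMENTS

Everything is phrased with a SUBGROUP `H ≤ G_ℚ` (think `H = I_L = Gal(ℚ̄/L)`, `L = K₀(E[p])`),
NO completion, NO base change of the model : the TT ring `𝔸` already contains `O_L = 𝔸 ∩ ℚ̄^H`.

* `MrgFix H y`        : the constant `y ∈ ℚ̄` is `H`-fixed (`y ∈ L = ℚ̄^H`).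
* `mrgFL N H`         : **`F_L`** := the SUBFIELD of `H`-invariant functions of `F_ℚ̄(N)` (coefficientwise
  action `ffipG N τ`, i.e. `q`-expansion coefficients in `L`).
* `MrgP1 𝔸 H σ π`     : **the INPUT from the E-side** (helper10's `(P1)`, the part `mrg` consumes) :
  `σ` inertial, normalises `H`; `π ∈ L` a uniformiser of `O_L = 𝔸 ∩ L` (value group of `L` is
  `ℤ v(π)`); `σ ≡ id mod π²` on `O_L`.  `MrgBreak 𝔸 H σ π` : `σ π = π (1 + c π) mod π³`, `c` a unit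
  (consumed by `mrr` only, recorded here so that the E-side has ONE target).
* OUTPUT (consumer helper12 `(R-ABS)`), `i = 1, 2`, `V₁ = ttrV1`, `V₂ = ttraV2` :
  - `MrgStable`   : `σ F_L ⊆ F_L`, `π ∈ F_L`;
  - `MrgVG Vᵢ`    : **(VG)**  `f ∈ F_Lˣ ⟹ ∃ n : ℤ, f π⁻ⁿ ∈ Vᵢˣ`;
  - `MrgMove Vᵢ`  : **(MOVE, strong)** `f ∈ F_L ∩ Vᵢ ⟹ (σ f - f) / π² ∈ Vᵢ`;
  - `MrgMoveW Vᵢ` : **(MOVE, weak)** `f ∈ F_Lˣ ⟹ (σ f - f) / (π f) ∈ Vᵢ`;
  - `MrgCore`     : the structural statement behind all of them : `f ∈ F_Lˣ ⟹ f b = πⁿ a` with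
    `a, b` INTEGRAL series with `H`-fixed coefficients, lying in `F`, with nonzero reductions.
* `MrgDescent N H σ n` : **DESCENT** : an `H`-fixed `x ∈ J₀(N)[n]` with `(σ - 1)² x = 0` has an
  `H`-invariant representative `D`, a Kummer function `f ∈ F_L` (`div f = n D`) and
  `h₂ ∈ F_L` with `div h₂ = (σ - 1)² D`.
-/

set_option autoImplicit false
set_option linter.unusedSectionVars false
set_option linter.unusedVariables false

noncomputable section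

namespace Fermat.Agent.MR

open AlgebraicCurve IsLocalRing ModularCurve Fermat.Agent.G Fermat.Agent.FF Fermat.Agent.S18
  Fermat.Agent.SS Fermat.Agent.TT

local notation "Qb" => AlgebraicClosure ℚ
local notation "GQ" => (AlgebraicClosure ℚ ≃ₐ[ℚ] AlgebraicClosure ℚ)

/-! ### `L = ℚ̄^H` and `F_L = F^H` -/

/-- the constant `y` is `H`-fixed, i.e. `y ∈ L = ℚ̄^H`. -/
def MrgFix (H : Subgroup GQ) (y : Qb) : Prop := ∀ τ ∈ H, τ y = y

/-- **`F_L`** : the subfield of `H`-invariant functions of `F_ℚ̄(N)` (coefficientwise action). -/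
def mrgFL (N : ℕ) [NeZero N] (H : Subgroup GQ) : Subfield (modularFunctionFieldBar N) where
  carrier := {f | ∀ τ ∈ H, ffipG N τ • f = f}
  mul_mem' {a b} ha hb τ hτ := by rw [smul_mul', ha τ hτ, hb τ hτ]
  one_mem' τ _ := smul_one _
  add_mem' {a b} ha hb τ hτ := by rw [smul_add, ha τ hτ, hb τ hτ]
  zero_mem' τ _ := smul_zero _
  neg_mem' {a} ha τ hτ := by rw [smul_neg, ha τ hτ]
  inv_mem' a ha τ hτ := by rw [smul_inv'', ha τ hτ]

theorem mem_mrgFL {N : ℕ} [NeZero N] {H : Subgroup GQ} {f : modularFunctionFieldBar N} :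
    f ∈ mrgFL N H ↔ ∀ τ ∈ H, ffipG N τ • f = f := Iff.rfl

/-! ### the input `(P1)` -/

/-- **(P1), the part consumed by `mrg`** : `σ` is inertial and normalises `H`; `π ∈ L` is a
uniformiser of `O_L = 𝔸 ∩ L`; the value group of `L` is `ℤ v(π)`; `σ ≡ id mod π²` on `O_L`. -/
structure MrgP1 (A : ValuationSubring Qb) (H : Subgroup GQ) (σ : GQ) (π : Qb) : Prop where
  inertial : σ ∈ A.inertiaSubgroupIn ℚ
  conj : ∀ τ : GQ, σ * τ * σ⁻¹ ∈ H ↔ τ ∈ H
  pi_fix : MrgFix H π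
  pi_ne : π ≠ 0
  pi_mem : π ∈ A
  pi_nonunit : π⁻¹ ∉ A
  unif : ∀ y : Qb, MrgFix H y → y ≠ 0 → ∃ n : ℤ, y * π ^ (-n) ∈ A ∧ (y * π ^ (-n))⁻¹ ∈ A
  triv : ∀ y : Qb, MrgFix H y → y ∈ A → (σ y - y) / π ^ 2 ∈ A

/-- **(P1c)** : the break is `1` : `σ π = π (1 + c π) mod π³` with `c ∈ O_Lˣ`. -/
def MrgBreak (A : ValuationSubring Qb) (H : Subgroup GQ) (σ : GQ) (π : Qb) : Prop :=
  ∃ c : Qb, MrgFix H c ∧ c ∈ A ∧ c⁻¹ ∈ A ∧ (σ π - π - c * π ^ 2) / π ^ 3 ∈ A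

/-! ### the outputs on an arbitrary valuation subring `V` of `F_ℚ̄(N)` -/

section Out

variable (N : ℕ) [NeZero N] (H : Subgroup GQ) (σ : GQ) (π : Qb)

/-- `F_L` is `σ`-stable and contains the constant `π`. -/
def MrgStable : Prop :=
  (∀ f ∈ mrgFL N H, ffipG N σ • f ∈ mrgFL N H) ∧
    algebraMap Qb (modularFunctionFieldBar N) π ∈ mrgFL N H

/-- **(VG)** : `v(F_Lˣ) ⊆ ℤ v(π)`. -/
def MrgVG (V : ValuationSubring (modularFunctionFieldBar N)) : Prop :=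
  ∀ f ∈ mrgFL N H, f ≠ 0 → ∃ n : ℤ,
    f * algebraMap Qb (modularFunctionFieldBar N) π ^ (-n) ∈ V ∧
      (f * algebraMap Qb (modularFunctionFieldBar N) π ^ (-n))⁻¹ ∈ V

/-- **(MOVE), strong form** : `f ∈ F_L ∩ V ⟹ (σ f - f) / π² ∈ V`. -/
def MrgMove (V : ValuationSubring (modularFunctionFieldBar N)) : Prop :=
  ∀ f ∈ mrgFL N H, f ∈ V →
    (ffipG N σ • f - f) / algebraMap Qb (modularFunctionFieldBar N) π ^ 2 ∈ V

/-- **(MOVE), weak form** : `f ∈ F_Lˣ ⟹ (σ f - f) / (π f) ∈ V`. -/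
def MrgMoveW (V : ValuationSubring (modularFunctionFieldBar N)) : Prop :=
  ∀ f ∈ mrgFL N H, f ≠ 0 →
    (ffipG N σ • f - f) / (algebraMap Qb (modularFunctionFieldBar N) π * f) ∈ V

end Out

/-! ### the structural statement at the Gauss valuation -/

/-- the integral series `a` has `H`-fixed coefficients. -/
def MrgFixSer {A : ValuationSubring Qb} (H : Subgroup GQ) (a : LaurentSeries A) : Prop :=
  ∀ n : ℤ, MrgFix H ((a.coeff n : A) : Qb)

/-- **(CORE)** : every `f ∈ F_Lˣ` is `πⁿ a / b` with `a, b` integral series with `H`-fixed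
coefficients, lying in `F_ℚ̄(N)`, with NONZERO reductions. -/
def MrgCore (N : ℕ) [NeZero N] (A : ValuationSubring Qb) (H : Subgroup GQ) (π : Qb) : Prop :=
  ∀ f ∈ mrgFL N H, f ≠ 0 → ∃ (n : ℤ) (a b : LaurentSeries A),
    MrgFixSer H a ∧ MrgFixSer H b ∧
    coeffMap A.subtype a ∈ modularFunctionFieldBar N ∧
    coeffMap A.subtype b ∈ modularFunctionFieldBar N ∧
    coeffMap (residue A) a ≠ 0 ∧ coeffMap (residue A) b ≠ 0 ∧
    (f : LaurentSeries Qb) * coeffMap A.subtype b =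
      HahnSeries.C (π ^ n) * coeffMap A.subtype a

/-! ### the statements at level `M p` -/

section Level

variable (M : ℕ) [NeZero M] {p : ℕ} [Fact p.Prime] [NeZero p]
variable (A : ValuationSubring Qb) (hpM : ¬ p ∣ M) (hA : A.LiesOverPrime p)
variable (H : Subgroup GQ) (σ : GQ) (π : Qb)

/-- **THE OUTPUT OF `mrg` FOR `(R-ABS)`** at the two Gauss valuations of `F_ℚ̄(M p)`. -/
def MrgOut : Prop :=
  MrgStable (M * p) H σ π ∧
  MrgVG (M * p) H π (ttrV1 M A hpM hA) ∧ MrgVG (M * p) H π (ttraV2 M A hpM hA) ∧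
  MrgMove (M * p) H σ π (ttrV1 M A hpM hA) ∧ MrgMove (M * p) H σ π (ttraV2 M A hpM hA) ∧
  MrgMoveW (M * p) H σ π (ttrV1 M A hpM hA) ∧ MrgMoveW (M * p) H σ π (ttraV2 M A hpM hA)

/-- **LEAF (mrg-1)** : `(P1) ⟹` the output. -/
def MrgOutSpec : Prop := MrgP1 A H σ π → MrgOut M A hpM hA H σ π

/-- **LEAF (mrg-0)** : `(P1) ⟹ (CORE)` (only `unif` is used). -/
def MrgCoreSpec : Prop := MrgP1 A H σ π → MrgCore (M * p) A H π

end Level

/-! ### DESCENT -/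

/-- `(σ - 1)² D` -/
def mrgD2 {N : ℕ} [NeZero N] (σ : GQ) (D : Divisor Qb (modularFunctionFieldBar N)) :
    Divisor Qb (modularFunctionFieldBar N) :=
  ffipG N σ • (ffipG N σ • D) - (2 : ℤ) • (ffipG N σ • D) + D

/-- **DESCENT** : an `H`-fixed `n`-torsion class `x ∈ J₀(N)` killed by `(σ - 1)²` has an
`H`-invariant representative `D` of degree `0`, with a Kummer function `f ∈ F_L`, `div f = n D`,
and a function `h₂ ∈ F_L` with `div h₂ = (σ - 1)² D`. -/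
def MrgDescent (N : ℕ) [NeZero N] (H : Subgroup GQ) (σ : GQ) (n : ℕ) : Prop :=
  ∀ x : JZero N, n • x = 0 → (∀ τ ∈ H, τ • x = x) → σ • (σ • x) - (2 : ℤ) • (σ • x) + x = 0 →
    ∃ (D : Divisor.degZero (K := Qb) (F := modularFunctionFieldBar N))
      (f h₂ : modularFunctionFieldBar N),
      x = Pic0.mk D ∧
      (∀ τ ∈ H, ffipG N τ • (D : Divisor Qb (modularFunctionFieldBar N)) = D) ∧
      f ∈ mrgFL N H ∧ f ≠ 0 ∧
      (∀ v : Place Qb (modularFunctionFieldBar N),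
        v.ord f = (n : ℤ) * (D : Divisor Qb (modularFunctionFieldBar N)) v) ∧
      h₂ ∈ mrgFL N H ∧ h₂ ≠ 0 ∧
      (∀ v : Place Qb (modularFunctionFieldBar N),
        v.ord h₂ = mrgD2 σ (D : Divisor Qb (modularFunctionFieldBar N)) v)

/-- **LEAF (mrg-2)** : DESCENT holds as soon as `σ` normalises `H` (no `(P1)` needed). -/
def MrgDescentSpec (N : ℕ) [NeZero N] (H : Subgroup GQ) (σ : GQ) (n : ℕ) : Prop :=
  n ≠ 0 → (∀ τ : GQ, σ * τ * σ⁻¹ ∈ H ↔ τ ∈ H) → MrgDescent N H σ n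

end Fermat.Agent.MR
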