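import Mathlib
import Fermat.Agent.MR.Gal.Spec
import Fermat.Agent.MR.Gal.Fixed
import Fermat.Agent.TT.Red2.Gauss1
import Fermat.Agent.SS.Top.Kum

/-!
# PROGRAM MR (S44), block `mrg` (owner helper9) : number-field models of `H`-invariant functions
and the structural statement `(CORE)` (prefix `mrg`)

* `mrg_model_fixed`  : `F_ℚ̄(N)^H = ⋃ F_{E'}(N)`, `E' = E ⊓ ℚ̄^H`, `E` finite normal big enough;
* `mrg_exists_model` : an `H`-invariant `f` has a model over a NUMBER FIELD `E' ⊆ ℚ̄^H`;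
* `mrg_core`         : `(CORE)` = `MrgCoreSpec` : `f b = πⁿ a`, `a, b` integral with `H`-fixed
  coefficients, in `F_ℚ̄(M p)`, with nonzero reductions.
-/

set_option autoImplicit false
set_option linter.unusedSectionVars false
set_option linter.unusedVariables false
set_option linter.style.haveILetI false
set_option synthInstance.maxHeartbeats 400000

noncomputable section

namespace Fermat.Agent.MR

open Polynomial ModularCurve AlgebraicCurve IsLocalRing IntermediateField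
  Fermat.Agent.G Fermat.Agent.S18 Fermat.Agent.SS Fermat.Agent.FF Fermat.Agent.TT

local notation "Qb" => AlgebraicClosure ℚ
local notation "GQ" => (AlgebraicClosure ℚ ≃ₐ[ℚ] AlgebraicClosure ℚ)

section Model

variable (H : Subgroup GQ) (E : IntermediateField ℚ Qb) (N : ℕ) [NeZero N]

/-- `ssdUp` is compatible with the base change `E' → E`. -/
theorem mrgf_up_iota (x : modularFunctionFieldFullC (mrgfE0 H E) N) :
    ssdUp E N (mrgfIota H E N x) = ssdUp (mrgfE0 H E) N x := by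
  apply Subtype.ext
  show s18dUp E (coeffMap (mrgfIncl H E) (x : LaurentSeries (mrgfE0 H E))) =
    s18dUp (mrgfE0 H E) (x : LaurentSeries (mrgfE0 H E))
  unfold s18dUp
  rw [coeffMap_coeffMap]
  exact coeffMap_congr (RingHom.ext fun c => rfl) _

/-- **`F_ℚ̄(N)^H = ⋃ F_{E'}(N)`.** -/
theorem mrg_model_fixed (y : modularFunctionFieldBar N) (hy : y ∈ mrgFL N H) :
    ∃ E₁ : IntermediateField ℚ Qb, FiniteDimensional ℚ E₁ ∧
      ∀ (E : IntermediateField ℚ Qb) [FiniteDimensional ℚ E] [Normal ℚ E], E₁ ≤ E →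
        ∃ g : modularFunctionFieldFullC (mrgfE0 H E) N, ssdUp (mrgfE0 H E) N g = y := by
  haveI halg : Algebra.IsAlgebraic ℚ Qb := AlgebraicClosure.isAlgebraic ℚ
  haveI hcl : IsAlgClosure ℚ Qb := AlgebraicClosure.instIsAlgClosure ℚ
  haveI hnormQb : Normal ℚ Qb := IsAlgClosure.normal ℚ Qb
  obtain ⟨E₁, hE₁, hmod⟩ := ssdr_exists_model N y
  refine ⟨E₁, hE₁, fun E _ _ hE => ?_⟩
  obtain ⟨z, hz⟩ := hmod E hE
  have hfixed : ∀ τ ∈ mrgfH H E, ssdAutRing E N τ z = z := by
    rintro τ ⟨σ, hσ, rfl⟩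
    apply ssdUp_injective E N
    have h1 : ssdUp E N (ssdAutRing E N (σ.restrictNormal E) z) = ssGal N σ (ssdUp E N z) :=
      ssdUp_aut E N σ z
    exact h1.trans (by rw [hz]; exact hy σ hσ)
  obtain ⟨g, hg⟩ := mrgf_fixed H E N z hfixed
  exact ⟨g, by rw [← mrgf_up_iota, hg, hz]⟩

/-- an `H`-invariant function has a model over a number field contained in `ℚ̄^H`. -/
theorem mrg_exists_model (y : modularFunctionFieldBar N) (hy : y ∈ mrgFL N H) :
    ∃ E' : IntermediateField ℚ Qb, FiniteDimensional ℚ E' ∧ (∀ c ∈ E', MrgFix H c) ∧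
      ∃ g : modularFunctionFieldFullC E' N, ssdUp E' N g = y := by
  obtain ⟨E₁, hE₁, hmod⟩ := mrg_model_fixed H N y hy
  haveI := hE₁
  haveI halg : Algebra.IsAlgebraic ℚ Qb := AlgebraicClosure.isAlgebraic ℚ
  haveI hcl : IsAlgClosure ℚ Qb := AlgebraicClosure.instIsAlgClosure ℚ
  haveI hnormQb : Normal ℚ Qb := IsAlgClosure.normal ℚ Qb
  obtain ⟨E, hE⟩ : ∃ E : IntermediateField ℚ Qb, E = IntermediateField.normalClosure ℚ E₁ Qb :=
    ⟨_, rfl⟩
  have hE₁E : E₁ ≤ E := hE ▸ IntermediateField.le_normalClosure E₁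
  haveI hfd : FiniteDimensional ℚ E := by
    rw [hE]; exact normalClosure.is_finiteDimensional ℚ E₁ Qb
  haveI hn : Normal ℚ E := by
    rw [hE]; exact normalClosure.normal ℚ E₁ Qb
  obtain ⟨g, hg⟩ := hmod E hE₁E
  exact ⟨mrgfE0 H E, inferInstance, fun c hc => ((mem_mrgfE0 H E).1 hc).2, g, hg⟩

end Model

section Core

variable (M : ℕ) [NeZero M] {p : ℕ} [Fact p.Prime] [NeZero p]
variable (A : ValuationSubring Qb) (H : Subgroup GQ)

/-- GAUSS NORMALISATION of a model over a number field `E` : `z b' = c a'` with `c ∈ Eˣ` and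
`a', b'` primitive integral series over `𝔸 ∩ E`, good at the level `M p`. -/
theorem mrg_normal_model (hpM : ¬ p ∣ M) (hA : A.LiesOverPrime p)
    (E : IntermediateField ℚ Qb) [FiniteDimensional ℚ E]
    (z : modularFunctionFieldFullC E (M * p)) (hz0 : z ≠ 0) :
    ∃ (c : E) (a' b' : LaurentSeries (s18dVal A E)), c ≠ 0 ∧
      S18Good (M * p) A (coeffMap (s18dIncl A E) a') ∧
      S18Good (M * p) A (coeffMap (s18dIncl A E) b') ∧
      coeffMap (residue A) (coeffMap (s18dIncl A E) a') ≠ 0 ∧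
      coeffMap (residue A) (coeffMap (s18dIncl A E) b') ≠ 0 ∧
      ((ssdUp E (M * p) z : modularFunctionFieldBar (M * p)) : LaurentSeries Qb) *
          coeffMap A.subtype (coeffMap (s18dIncl A E) b') =
        HahnSeries.C (algebraMap E Qb c) * coeffMap A.subtype (coeffMap (s18dIncl A E) a') := by
  haveI : IsDiscreteValuationRing (s18dVal A E) := s18d_isDVR A E hA
  obtain ⟨ϖ, hϖ⟩ := IsDiscreteValuationRing.exists_irreducible (s18dVal A E)
  haveI : CharZero (s18dVal A E) := ggn_charZero A E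
  obtain ⟨a, b, ha, hb, hb0, hab⟩ :=
    s18v_gen_full (A₀ := s18dVal A E) (L₀ := E) (M * p) z
  have hz0' : (z : LaurentSeries E) ≠ 0 := fun h => hz0 (Subtype.ext h)
  have hinj : Function.Injective (s18vIncl (s18dVal A E) E) := by
    intro x y hxy
    ext k
    have := congrArg (fun s => HahnSeries.coeff s k) hxy
    simpa using this
  have ha0 : a ≠ 0 := by
    rintro rfl
    rw [map_zero] at hab
    rcases mul_eq_zero.mp hab with h | h
    · exact hz0' h
    · exact hb0 (hinj (by rw [h, map_zero]))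
  obtain ⟨n, a', rfl, ha'⟩ := s18vg_exists_primitive hϖ a ha0
  obtain ⟨m, b', rfl, hb'⟩ := s18vg_exists_primitive hϖ b hb0
  have hϖn : ∀ k : ℕ, ϖ ^ k ≠ 0 := fun k => pow_ne_zero _ hϖ.ne_zero
  have ha'm := s18vg_mem_of_C_mul (F := modularFunctionFieldFullC E (M * p)) (ϖ ^ n) (hϖn n) a' ha
  have hb'm := s18vg_mem_of_C_mul (F := modularFunctionFieldFullC E (M * p)) (ϖ ^ m) (hϖn m) b' hb
  have h₁ := (ttr_good_of_model M A hpM hA E a' ha'm).1
  have h₂ := (ttr_good_of_model M A hpM hA E b' hb'm).1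
  have hc0 : algebraMap (s18dVal A E) E (ϖ ^ n) / algebraMap (s18dVal A E) E (ϖ ^ m) ≠ 0 := by
    refine div_ne_zero ?_ ?_
    · rw [Ne, map_eq_zero_iff _ (IsFractionRing.injective (s18dVal A E) E)]; exact hϖn n
    · rw [Ne, map_eq_zero_iff _ (IsFractionRing.injective (s18dVal A E) E)]; exact hϖn m
  refine ⟨algebraMap (s18dVal A E) E (ϖ ^ n) / algebraMap (s18dVal A E) E (ϖ ^ m), a', b', hc0,
    h₁, h₂, ggn_spec_ne_zero A E a' ha', ggn_spec_ne_zero A E b' hb', ?_⟩
  show s18dUp E (z : LaurentSeries E) * coeffMap A.subtype (coeffMap (s18dIncl A E) b') =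
    HahnSeries.C (algebraMap E Qb _) * coeffMap A.subtype (coeffMap (s18dIncl A E) a')
  have hC : (HahnSeries.C (algebraMap E Qb
      (algebraMap (s18dVal A E) E (ϖ ^ n) / algebraMap (s18dVal A E) E (ϖ ^ m))) :
      LaurentSeries Qb) = s18dUp E (algebraMap E (LaurentSeries E)
        (algebraMap (s18dVal A E) E (ϖ ^ n) / algebraMap (s18dVal A E) E (ϖ ^ m))) := by
    unfold s18dUp
    rw [s18dd_coeffMap_algebraMap, algebraMap_laurentSeries_eq_single]
    rfl
  rw [hC, ← s18d_up_incl, ← s18d_up_incl]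
  unfold s18dUp
  rw [← map_mul, ← map_mul]
  congr 1
  rw [map_mul, map_mul, s18vg_incl_C, s18vg_incl_C] at hab
  have hm0 : algebraMap E (LaurentSeries E) (algebraMap (s18dVal A E) E (ϖ ^ m)) ≠ 0 := by
    rw [Ne, map_eq_zero_iff _ (algebraMap E (LaurentSeries E)).injective,
      map_eq_zero_iff _ (IsFractionRing.injective (s18dVal A E) E)]
    exact hϖn m
  rw [map_div₀, div_mul_eq_mul_div, eq_div_iff hm0, ← hab]
  ring

/-- **(CORE)** = `MrgCoreSpec` (only `pi_fix`, `pi_ne`, `unif` of `(P1)` are used). -/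
theorem mrg_core (hpM : ¬ p ∣ M) (hA : A.LiesOverPrime p) (π : Qb)
    (hπfix : MrgFix H π) (hπ0 : π ≠ 0)
    (hunif : ∀ y : Qb, MrgFix H y → y ≠ 0 →
      ∃ n : ℤ, y * π ^ (-n) ∈ A ∧ (y * π ^ (-n))⁻¹ ∈ A) :
    MrgCore (M * p) A H π := by
  intro f hf hf0
  obtain ⟨E', hfd, hfixE', g, hg⟩ := mrg_exists_model H (M * p) f hf
  haveI := hfd
  have hg0 : g ≠ 0 := by
    rintro rfl
    rw [map_zero] at hg
    exact hf0 hg.symm
  obtain ⟨c, a', b', hc0, h₁, h₂, hra, hrb, heq⟩ := mrg_normal_model M A hpM hA E' g hg0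
  rw [hg] at heq
  have hcfix : MrgFix H (algebraMap E' Qb c) := hfixE' _ c.2
  have hc0' : algebraMap E' Qb c ≠ 0 := by
    rw [Ne, map_eq_zero_iff _ (algebraMap E' Qb).injective]; exact hc0
  obtain ⟨n, hu, hu'⟩ := hunif _ hcfix hc0'
  obtain ⟨u, hudef⟩ : ∃ u : Qb, u = algebraMap E' Qb c * π ^ (-n) := ⟨_, rfl⟩
  rw [← hudef] at hu hu'
  have hufix : MrgFix H u := by
    intro τ hτ
    rw [hudef, map_mul, hcfix τ hτ, map_zpow₀, hπfix τ hτ]
  have hu0 : u ≠ 0 := by
    rw [hudef]; exact mul_ne_zero hc0' (zpow_ne_zero _ hπ0)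
  have hcu : algebraMap E' Qb c = π ^ n * u := by
    rw [hudef, mul_comm, mul_assoc, ← zpow_add₀ hπ0, neg_add_cancel, zpow_zero, mul_one]
  have hfixcoe : ∀ (x : LaurentSeries (s18dVal A E')) (k : ℤ),
      MrgFix H (((coeffMap (s18dIncl A E') x).coeff k : A) : Qb) := by
    intro x k
    rw [coeffMap_coeff]
    exact hfixE' _ ((x.coeff k : s18dVal A E') : E').2
  refine ⟨n, HahnSeries.C (⟨u, hu⟩ : A) * coeffMap (s18dIncl A E') a',
    coeffMap (s18dIncl A E') b', ?_, hfixcoe b', ?_, h₂.1, ?_, hrb, ?_⟩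
  · intro k τ hτ
    rw [HahnSeries.C_mul_eq_smul, HahnSeries.coeff_smul, smul_eq_mul]
    show τ (u * (((coeffMap (s18dIncl A E') a').coeff k : A) : Qb)) = _
    rw [map_mul, hufix τ hτ, hfixcoe a' k τ hτ]
    rfl
  · exact (grd_good_mul (ggn_good_C (N := M * p) (⟨u, hu⟩ : A)) h₁).1
  · rw [map_mul]
    intro h0
    rcases mul_eq_zero.1 h0 with h | h
    · have h1 := congrArg (fun s => HahnSeries.coeff s 0) h
      have e2 : coeffMap (residue A) (HahnSeries.C (⟨u, hu⟩ : A)) =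
          HahnSeries.C (residue A ⟨u, hu⟩) := coeffMap_single (residue A) (0 : ℤ) _
      simp only [e2, HahnSeries.coeff_zero] at h1
      rw [HahnSeries.C_apply, HahnSeries.coeff_single_same] at h1
      have hunit : IsUnit (⟨u, hu⟩ : A) := by
        refine IsUnit.of_mul_eq_one ⟨u⁻¹, hu'⟩ (Subtype.ext ?_)
        exact mul_inv_cancel₀ hu0
      exact (residue_ne_zero_iff_isUnit _).2 hunit h1
    · exact hra h
  · rw [heq, hcu, map_mul, map_mul, grdga_coeffMap_C]
    ring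

end Core

end Fermat.Agent.MR
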