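import Mathlib

/-!
# PROGRAM MR (S44), block `mrg` (owner helper9) : the ABSTRACT valuation-ring algebra behind
`(MOVE)` (prefix `mrga`)

`V` a valuation subring of a field `F`, `s : F ≃+* F` with `s V ⊆ V`, `ϖ ∈ 𝔪_V ∖ 0`.

* `MrgaS V s ϖ x` : `x ∈ V` and `(s x - x) / ϖ² ∈ V` (`s ≡ id mod ϖ²` at `x`) -- closed under
  `1`, `*`, inverses of `V`-units;
* `MrgaW V s ϖ x` : `x ≠ 0` and `(s x - x) / (ϖ x) ∈ V` (`s x / x ∈ 1 + ϖ V`) -- closed under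
  `*`, `⁻¹`, `zpow`, contains the `V`-units of `MrgaS`;
* `mrga_move` : `f b = ϖⁿ a` with `a, b` `V`-units in `MrgaS`, `ϖ ∈ MrgaS` ⟹ `f ∈ MrgaW`, and
  `f ∈ V ⟹ f ∈ MrgaS`.
-/

set_option autoImplicit false

namespace Fermat.Agent.MR

variable {F : Type*} [Field F] (V : ValuationSubring F) (s : F ≃+* F) (ϖ : F)

/-- `s ≡ id mod ϖ²` at `x ∈ V`. -/
def MrgaS (x : F) : Prop := x ∈ V ∧ (s x - x) / ϖ ^ 2 ∈ V

/-- `s x / x ∈ 1 + ϖ V`. -/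
def MrgaW (x : F) : Prop := x ≠ 0 ∧ (s x - x) / (ϖ * x) ∈ V

variable {V s ϖ}

theorem mrgaS_one : MrgaS V s ϖ 1 := by
  refine ⟨one_mem _, ?_⟩
  rw [map_one, sub_self, zero_div]
  exact zero_mem _

theorem MrgaS.mul (hs : ∀ x ∈ V, s x ∈ V) {x y : F} (hx : MrgaS V s ϖ x) (hy : MrgaS V s ϖ y) :
    MrgaS V s ϖ (x * y) := by
  refine ⟨mul_mem hx.1 hy.1, ?_⟩
  have e : (s (x * y) - x * y) / ϖ ^ 2 =
      (s x - x) / ϖ ^ 2 * s y + x * ((s y - y) / ϖ ^ 2) := by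
    rw [map_mul]; ring
  rw [e]
  exact add_mem (mul_mem hx.2 (hs y hy.1)) (mul_mem hx.1 hy.2)

theorem MrgaS.pow (hs : ∀ x ∈ V, s x ∈ V) {x : F} (hx : MrgaS V s ϖ x) (n : ℕ) :
    MrgaS V s ϖ (x ^ n) := by
  induction n with
  | zero => rw [pow_zero]; exact mrgaS_one
  | succ k ih => rw [pow_succ]; exact ih.mul hs hx

theorem MrgaS.inv (hs : ∀ x ∈ V, s x ∈ V) {x : F} (hx : MrgaS V s ϖ x) (hx' : x⁻¹ ∈ V) :
    MrgaS V s ϖ x⁻¹ := by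
  refine ⟨hx', ?_⟩
  by_cases hx0 : x = 0
  · rw [hx0, inv_zero, map_zero, sub_self, zero_div]; exact zero_mem _
  have hsx0 : s x ≠ 0 := (map_ne_zero_iff _ s.injective).2 hx0
  have e : (s x⁻¹ - x⁻¹) / ϖ ^ 2 = -((s x - x) / ϖ ^ 2) * (x⁻¹ * s x⁻¹) := by
    rw [map_inv₀]
    field_simp
    ring
  rw [e]
  exact mul_mem (neg_mem hx.2) (mul_mem hx' (hs _ hx'))

theorem MrgaS.toW (hϖV : ϖ ∈ V) {x : F} (hx : MrgaS V s ϖ x) (hx0 : x ≠ 0) (hx' : x⁻¹ ∈ V) :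
    MrgaW V s ϖ x := by
  refine ⟨hx0, ?_⟩
  by_cases hϖ0 : ϖ = 0
  · rw [hϖ0, zero_mul, div_zero]; exact zero_mem _
  have e : (s x - x) / (ϖ * x) = ϖ * ((s x - x) / ϖ ^ 2) * x⁻¹ := by
    field_simp
  rw [e]
  exact mul_mem (mul_mem hϖV hx.2) hx'

/-- `x ∈ MrgaW` iff `s x = x (1 + ϖ t)` with `t ∈ V`. -/
theorem mrgaW_iff (hϖ0 : ϖ ≠ 0) {x : F} :
    MrgaW V s ϖ x ↔ x ≠ 0 ∧ ∃ t ∈ V, s x = x * (1 + ϖ * t) := by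
  constructor
  · rintro ⟨hx0, ht⟩
    refine ⟨hx0, _, ht, ?_⟩
    field_simp
    ring
  · rintro ⟨hx0, t, ht, hst⟩
    refine ⟨hx0, ?_⟩
    have e : (s x - x) / (ϖ * x) = t := by
      rw [hst]
      field_simp
      ring
    rw [e]; exact ht

theorem MrgaW.mul (hϖ0 : ϖ ≠ 0) (hϖV : ϖ ∈ V) {x y : F} (hx : MrgaW V s ϖ x)
    (hy : MrgaW V s ϖ y) : MrgaW V s ϖ (x * y) := by
  rw [mrgaW_iff hϖ0] at hx hy ⊢
  obtain ⟨hx0, t, ht, hxt⟩ := hx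
  obtain ⟨hy0, u, hu, hyu⟩ := hy
  refine ⟨mul_ne_zero hx0 hy0, t + u + ϖ * t * u,
    add_mem (add_mem ht hu) (mul_mem (mul_mem hϖV ht) hu), ?_⟩
  rw [map_mul, hxt, hyu]
  ring

theorem mrga_one_add_inv_mem (hϖV : ϖ ∈ V) (hϖn : ϖ⁻¹ ∉ V) {t : F} (ht : t ∈ V) :
    (1 + ϖ * t)⁻¹ ∈ V := by
  have h1 : V.valuation ϖ < 1 := by
    rcases lt_or_eq_of_le ((V.valuation_le_one_iff ϖ).2 hϖV) with h | h
    · exact h
    · exfalso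
      apply hϖn
      rw [← V.valuation_le_one_iff, map_inv₀, h, inv_one]
  have h2 : V.valuation (ϖ * t) < 1 := by
    rw [map_mul]
    exact mul_lt_one_of_lt_of_le h1 ((V.valuation_le_one_iff t).2 ht)
  have h3 : V.valuation (1 + ϖ * t) = 1 := by
    exact Valuation.map_one_add_of_lt _ h2
  rw [← V.valuation_le_one_iff, map_inv₀, h3, inv_one]

theorem MrgaW.inv (hϖ0 : ϖ ≠ 0) (hϖV : ϖ ∈ V) (hϖn : ϖ⁻¹ ∉ V) {x : F} (hx : MrgaW V s ϖ x) :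
    MrgaW V s ϖ x⁻¹ := by
  rw [mrgaW_iff hϖ0] at hx ⊢
  obtain ⟨hx0, t, ht, hxt⟩ := hx
  have hu := mrga_one_add_inv_mem hϖV hϖn ht
  have hne : 1 + ϖ * t ≠ 0 := by
    intro h0
    have hsx : s x = 0 := by rw [hxt, h0, mul_zero]
    exact hx0 ((map_eq_zero_iff _ s.injective).1 hsx)
  refine ⟨inv_ne_zero hx0, -t * (1 + ϖ * t)⁻¹, mul_mem (neg_mem ht) hu, ?_⟩
  rw [map_inv₀, hxt]
  field_simp
  ring

theorem MrgaW.zpow (hϖ0 : ϖ ≠ 0) (hϖV : ϖ ∈ V) (hϖn : ϖ⁻¹ ∉ V) {x : F} (hx : MrgaW V s ϖ x)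
    (n : ℤ) : MrgaW V s ϖ (x ^ n) := by
  have hpow : ∀ k : ℕ, MrgaW V s ϖ (x ^ k) := by
    intro k
    induction k with
    | zero =>
      rw [pow_zero]
      refine ⟨one_ne_zero, ?_⟩
      rw [map_one, sub_self, zero_div]
      exact zero_mem _
    | succ k ih => rw [pow_succ]; exact ih.mul hϖ0 hϖV hx
  cases n with
  | ofNat k => rw [Int.ofNat_eq_natCast, zpow_natCast]; exact hpow k
  | negSucc k => rw [zpow_negSucc]; exact (hpow (k + 1)).inv hϖ0 hϖV hϖn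

/-- **THE ABSTRACT (MOVE)** : `f b = ϖⁿ a`, `a, b` `V`-units with `s ≡ id mod ϖ²` at `a`, `b`, `ϖ`
⟹ `(s f - f) / (ϖ f) ∈ V`, and `(s f - f) / ϖ² ∈ V` if `f ∈ V`. -/
theorem mrga_move (hs : ∀ x ∈ V, s x ∈ V) (hϖ0 : ϖ ≠ 0) (hϖn : ϖ⁻¹ ∉ V)
    (hϖ : MrgaS V s ϖ ϖ) {a b f : F} (ha : MrgaS V s ϖ a) (ha' : a⁻¹ ∈ V) (ha0 : a ≠ 0)
    (hb : MrgaS V s ϖ b) (hb' : b⁻¹ ∈ V) (hb0 : b ≠ 0) (n : ℤ) (hf : f * b = ϖ ^ n * a) :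
    MrgaW V s ϖ f ∧ (f ∈ V → MrgaS V s ϖ f) := by
  have hϖV : ϖ ∈ V := hϖ.1
  have hfe : f = ϖ ^ n * (a * b⁻¹) := by
    rw [← mul_assoc, ← hf, mul_assoc, mul_inv_cancel₀ hb0, mul_one]
  have hϖW : MrgaW V s ϖ ϖ := by
    refine ⟨hϖ0, ?_⟩
    have e : (s ϖ - ϖ) / (ϖ * ϖ) = (s ϖ - ϖ) / ϖ ^ 2 := by rw [pow_two]
    rw [e]; exact hϖ.2
  have hab : MrgaS V s ϖ (a * b⁻¹) := ha.mul hs (hb.inv hs hb')
  have habW : MrgaW V s ϖ (a * b⁻¹) :=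
    hab.toW hϖV (mul_ne_zero ha0 (inv_ne_zero hb0))
      (by rw [mul_inv, inv_inv]; exact mul_mem ha' hb.1)
  refine ⟨?_, fun hfV => ?_⟩
  · rw [hfe]
    exact (hϖW.zpow hϖ0 hϖV hϖn n).mul hϖ0 hϖV habW
  · -- `ϖⁿ ∈ V` forces `n ≥ 0`
    have hpn : ϖ ^ n ∈ V := by
      have e : ϖ ^ n = f * (b * a⁻¹) := by
        rw [← mul_assoc, hf, mul_assoc, mul_inv_cancel₀ ha0, mul_one]
      rw [e]
      exact mul_mem hfV (mul_mem hb.1 ha')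
    have hn : 0 ≤ n := by
      by_contra hneg
      push Not at hneg
      apply hϖn
      obtain ⟨m, hm⟩ : ∃ m : ℕ, n = -((m : ℤ) + 1) := by
        refine ⟨(-n - 1).toNat, ?_⟩
        have := Int.toNat_of_nonneg (show 0 ≤ -n - 1 by omega)
        omega
      have e : ϖ⁻¹ = ϖ ^ n * ϖ ^ m := by
        rw [hm, zpow_neg, ← zpow_natCast ϖ m]
        have hz : ϖ ^ ((m : ℤ) + 1) = ϖ ^ (m : ℤ) * ϖ := zpow_add_one₀ hϖ0 _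
        rw [hz, mul_inv]
        have hm0 : ϖ ^ (m : ℤ) ≠ 0 := zpow_ne_zero _ hϖ0
        field_simp
      rw [e]
      exact mul_mem hpn (pow_mem hϖV m)
    obtain ⟨k, rfl⟩ := Int.eq_ofNat_of_zero_le hn
    rw [hfe, zpow_natCast]
    exact (hϖ.pow hs k).mul hs hab

end Fermat.Agent.MR
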