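import Mathlib
import Fermat.Agent.MR.Gal.Core
import Fermat.Agent.MR.Gal.MoveAbs

/-!
# PROGRAM MR (S44), block `mrg` (owner helper9) : `(VG)`, `(MOVE)` at the first Gauss valuation
`V₁ = ttrV1` of `F_ℚ̄(M p)` (prefix `mrg`)

* `mrgDelta` : for an integral series `a` with `(σ aₖ - aₖ) / π² ∈ 𝔸` for all `k`, the integral
  series `(σ a - a) / π²`;
* `mrg_ser_S` : an integral series with `H`-fixed coefficients lying in `F` satisfies
  `s ≡ id mod π²` at `V₁` (`MrgaS`);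
* `mrg_vg₁`, `mrg_move₁`, `mrg_moveW₁` : `MrgVG`, `MrgMove`, `MrgMoveW` at `V₁`.
-/

set_option autoImplicit false
set_option linter.unusedSectionVars false
set_option linter.unusedVariables false
set_option linter.style.haveILetI false
set_option synthInstance.maxHeartbeats 400000

noncomputable section

namespace Fermat.Agent.MR

open Polynomial ModularCurve AlgebraicCurve IsLocalRing IntermediateField
  Fermat.Agent.G Fermat.Agent.S18 Fermat.Agent.SS Fermat.Agent.FF Fermat.Agent.TT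
  Fermat.Agent.S05

local notation "Qb" => AlgebraicClosure ℚ
local notation "GQ" => (AlgebraicClosure ℚ ≃ₐ[ℚ] AlgebraicClosure ℚ)

section Delta

variable {A : ValuationSubring Qb} (σ : GQ) (π : Qb)

/-- the integral series `(σ a - a) / π²`. -/
def mrgDelta (a : LaurentSeries A)
    (h : ∀ k : ℤ, (σ ((a.coeff k : A) : Qb) - ((a.coeff k : A) : Qb)) / π ^ 2 ∈ A) :
    LaurentSeries A where
  coeff k := ⟨(σ ((a.coeff k : A) : Qb) - ((a.coeff k : A) : Qb)) / π ^ 2, h k⟩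
  isPWO_support' := by
    refine a.isPWO_support.mono ?_
    intro k hk
    rw [Function.mem_support] at hk
    rw [HahnSeries.mem_support]
    intro h0
    apply hk
    apply Subtype.ext
    show (σ ((a.coeff k : A) : Qb) - ((a.coeff k : A) : Qb)) / π ^ 2 = ((0 : A) : Qb)
    rw [h0]
    simp

theorem mrgDelta_spec (hπ0 : π ≠ 0) (a : LaurentSeries A)
    (h : ∀ k : ℤ, (σ ((a.coeff k : A) : Qb) - ((a.coeff k : A) : Qb)) / π ^ 2 ∈ A) :
    HahnSeries.C (π ^ 2) * coeffMap A.subtype (mrgDelta σ π a h) =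
      coeffMap (σ : Qb →+* Qb) (coeffMap A.subtype a) - coeffMap A.subtype a := by
  ext k
  rw [HahnSeries.C_mul_eq_smul, HahnSeries.coeff_smul, HahnSeries.coeff_sub, coeffMap_coeff,
    coeffMap_coeff, coeffMap_coeff, smul_eq_mul]
  show π ^ 2 * ((σ ((a.coeff k : A) : Qb) - ((a.coeff k : A) : Qb)) / π ^ 2) = _
  rw [mul_div_cancel₀ _ (pow_ne_zero 2 hπ0)]
  rfl

end Delta

section V1

variable (M : ℕ) [NeZero M] {p : ℕ} [Fact p.Prime] [NeZero p]
variable (A : ValuationSubring Qb) (hpM : ¬ p ∣ M) (hA : A.LiesOverPrime p)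
variable (H : Subgroup GQ) (σ : GQ) (π : Qb)

/-- the ring automorphism `σ` of `F` -/
abbrev mrgS (N : ℕ) [NeZero N] (σ : GQ) : modularFunctionFieldBar N ≃+* modularFunctionFieldBar N :=
  SemilinearAut.toRingAut (ffipG N σ)

/-- the constant function `π` -/
abbrev mrgPi (N : ℕ) [NeZero N] (π : Qb) : modularFunctionFieldBar N :=
  algebraMap Qb (modularFunctionFieldBar N) π

variable {M A H σ π}

theorem mrg_hs (hσ : IsInertial A σ) :
    ∀ x ∈ ttrV1 M A hpM hA, mrgS (M * p) σ x ∈ ttrV1 M A hpM hA :=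
  fun x hx => ffip_smul_mem_grdO (M * p) hσ hx

theorem mrg_pi_inv_not_mem (hπn : π⁻¹ ∉ A) : (mrgPi (M * p) π)⁻¹ ∉ ttrV1 M A hpM hA := by
  intro h
  apply hπn
  rw [mrgPi, ← map_inv₀, mem_ttrV1, grdO_algebraMap_mem_iff] at h
  exact h

theorem mrg_pi_ne (hπ0 : π ≠ 0) : mrgPi (M * p) π ≠ 0 := by
  rw [mrgPi, Ne, map_eq_zero]; exact hπ0

/-- constants of `O_L` : `s ≡ id mod π²`. -/
theorem mrg_const_S (hπ0 : π ≠ 0) {c : Qb} (hc : c ∈ A) (hσc : (σ c - c) / π ^ 2 ∈ A) :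
    MrgaS (ttrV1 M A hpM hA) (mrgS (M * p) σ) (mrgPi (M * p) π)
      (algebraMap Qb (modularFunctionFieldBar (M * p)) c) := by
  refine ⟨(grdO_algebraMap_mem_iff (M * p) A c).2 hc, ?_⟩
  have e : (mrgS (M * p) σ (algebraMap Qb (modularFunctionFieldBar (M * p)) c) -
      algebraMap Qb (modularFunctionFieldBar (M * p)) c) / mrgPi (M * p) π ^ 2 =
      algebraMap Qb (modularFunctionFieldBar (M * p)) ((σ c - c) / π ^ 2) := by
    have h1 : mrgS (M * p) σ (algebraMap Qb (modularFunctionFieldBar (M * p)) c) =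
        algebraMap Qb (modularFunctionFieldBar (M * p)) (σ c) := ffipG_algebraMap (M * p) σ c
    rw [h1, mrgPi, map_div₀, map_sub, map_pow]
  rw [e]
  exact (grdO_algebraMap_mem_iff (M * p) A _).2 hσc

/-- an integral series with `σ ≡ id mod π²` on its coefficients, lying in `F` : a `V₁`-element with
`s ≡ id mod π²`. -/
theorem mrg_ser_S (hσ : IsInertial A σ) (hπ0 : π ≠ 0) (a : LaurentSeries A)
    (haF : coeffMap A.subtype a ∈ modularFunctionFieldBar (M * p))
    (h : ∀ k : ℤ, (σ ((a.coeff k : A) : Qb) - ((a.coeff k : A) : Qb)) / π ^ 2 ∈ A) :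
    MrgaS (ttrV1 M A hpM hA) (mrgS (M * p) σ) (mrgPi (M * p) π)
      (⟨coeffMap A.subtype a, haF⟩ : modularFunctionFieldBar (M * p)) := by
  have hgood := (ttr_good_of_gen M A hpM hA a haF).1
  refine ⟨grd_gen_mem hgood, ?_⟩
  -- the series `d = (σ a - a) / π²`
  have hspec := mrgDelta_spec σ π hπ0 a h
  have hC0 : (HahnSeries.C (π ^ 2) : LaurentSeries Qb) ≠ 0 := by
    intro h0
    have h1 := congrArg (fun s => HahnSeries.coeff s 0) h0
    simp only [HahnSeries.coeff_zero] at h1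
    rw [HahnSeries.C_apply, HahnSeries.coeff_single_same] at h1
    exact pow_ne_zero 2 hπ0 h1
  have hsa : ((mrgS (M * p) σ ⟨coeffMap A.subtype a, haF⟩ : modularFunctionFieldBar (M * p)) :
      LaurentSeries Qb) = coeffMap (σ : Qb →+* Qb) (coeffMap A.subtype a) := rfl
  have hπ2 : ((mrgPi (M * p) π ^ 2 : modularFunctionFieldBar (M * p)) : LaurentSeries Qb) =
      HahnSeries.C (π ^ 2) := by
    rw [mrgPi, ← map_pow, grdga_coe_algebraMap]
  have hdF : coeffMap A.subtype (mrgDelta σ π a h) ∈ modularFunctionFieldBar (M * p) := by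
    have h1 : coeffMap A.subtype (mrgDelta σ π a h) =
        (HahnSeries.C (π ^ 2))⁻¹ *
          (coeffMap (σ : Qb →+* Qb) (coeffMap A.subtype a) - coeffMap A.subtype a) := by
      rw [← hspec, ← mul_assoc, inv_mul_cancel₀ hC0, one_mul]
    rw [h1, ← hπ2, ← hsa]
    exact mul_mem (inv_mem (SetLike.coe_mem _))
      (sub_mem (SetLike.coe_mem _) haF)
  have hdgood := (ttr_good_of_gen M A hpM hA _ hdF).1
  have e : (mrgS (M * p) σ ⟨coeffMap A.subtype a, haF⟩ -
      (⟨coeffMap A.subtype a, haF⟩ : modularFunctionFieldBar (M * p))) / mrgPi (M * p) π ^ 2 =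
      hdgood.gen := by
    rw [div_eq_iff (pow_ne_zero 2 (mrg_pi_ne hπ0))]
    apply Subtype.ext
    show coeffMap (σ : Qb →+* Qb) (coeffMap A.subtype a) - coeffMap A.subtype a =
      coeffMap A.subtype (mrgDelta σ π a h) *
        ((mrgPi (M * p) π ^ 2 : modularFunctionFieldBar (M * p)) : LaurentSeries Qb)
    rw [hπ2, ← hspec, mul_comm]
  rw [e]
  exact grd_gen_mem hdgood

/-- a good series with nonzero reduction is a unit of `V₁`. -/
theorem mrg_ser_inv_mem (a : LaurentSeries A)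
    (haF : coeffMap A.subtype a ∈ modularFunctionFieldBar (M * p))
    (hra : coeffMap (residue A) a ≠ 0) :
    (⟨coeffMap A.subtype a, haF⟩ : modularFunctionFieldBar (M * p))⁻¹ ∈ ttrV1 M A hpM hA := by
  have hgood := (ttr_good_of_gen M A hpM hA a haF).1
  have ha0 : (⟨coeffMap A.subtype a, haF⟩ : modularFunctionFieldBar (M * p)) ≠ 0 := by
    intro h0
    apply hra
    have h1 : coeffMap A.subtype a = 0 := congrArg Subtype.val h0
    have h2 : a = 0 := by
      ext k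
      have := congrArg (fun s => HahnSeries.coeff s k) h1
      simpa using this
    rw [h2, map_zero]
  refine ⟨1, a, grd_good_one, hgood, hra, ?_⟩
  rw [map_one]
  show ((⟨coeffMap A.subtype a, haF⟩ : modularFunctionFieldBar (M * p))⁻¹ *
    (⟨coeffMap A.subtype a, haF⟩ : modularFunctionFieldBar (M * p)) :
      modularFunctionFieldBar (M * p)).1 = 1
  rw [inv_mul_cancel₀ ha0]
  rfl

/-! ### the three statements at `V₁` -/

section Main

variable (hP : MrgP1 A H σ π)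

include hP

/-- the common set-up : `f bF = πⁿ aF` with `aF, bF` units of `V₁` satisfying `s ≡ id mod π²`. -/
theorem mrg_setup₁ {f : modularFunctionFieldBar (M * p)} (hf : f ∈ mrgFL (M * p) H)
    (hf0 : f ≠ 0) :
    ∃ (n : ℤ) (aF bF : modularFunctionFieldBar (M * p)),
      MrgaS (ttrV1 M A hpM hA) (mrgS (M * p) σ) (mrgPi (M * p) π) aF ∧
      aF⁻¹ ∈ ttrV1 M A hpM hA ∧ aF ≠ 0 ∧
      MrgaS (ttrV1 M A hpM hA) (mrgS (M * p) σ) (mrgPi (M * p) π) bF ∧
      bF⁻¹ ∈ ttrV1 M A hpM hA ∧ bF ≠ 0 ∧ f * bF = mrgPi (M * p) π ^ n * aF := by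
  have hσ : IsInertial A σ := isInertial_of_mem_inertiaSubgroupIn A σ hP.inertial
  obtain ⟨n, a, b, hfa, hfb, haF, hbF, hra, hrb, heq⟩ :=
    mrg_core M A H hpM hA π hP.pi_fix hP.pi_ne hP.unif f hf hf0
  have hmove : ∀ (x : LaurentSeries A), MrgFixSer H x →
      ∀ k : ℤ, (σ ((x.coeff k : A) : Qb) - ((x.coeff k : A) : Qb)) / π ^ 2 ∈ A :=
    fun x hx k => hP.triv _ (hx k) (x.coeff k).2
  have hne : ∀ (x : LaurentSeries A) (hxF : coeffMap A.subtype x ∈ modularFunctionFieldBar (M * p)),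
      coeffMap (residue A) x ≠ 0 →
      (⟨coeffMap A.subtype x, hxF⟩ : modularFunctionFieldBar (M * p)) ≠ 0 := by
    intro x hxF hrx h0
    apply hrx
    have h1 : coeffMap A.subtype x = 0 := congrArg Subtype.val h0
    have h2 : x = 0 := by
      ext k
      have := congrArg (fun s => HahnSeries.coeff s k) h1
      simpa using this
    rw [h2, map_zero]
  refine ⟨n, ⟨coeffMap A.subtype a, haF⟩, ⟨coeffMap A.subtype b, hbF⟩,
    mrg_ser_S hpM hA hσ hP.pi_ne a haF (hmove a hfa), mrg_ser_inv_mem hpM hA a haF hra,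
    hne a haF hra,
    mrg_ser_S hpM hA hσ hP.pi_ne b hbF (hmove b hfb), mrg_ser_inv_mem hpM hA b hbF hrb,
    hne b hbF hrb, ?_⟩
  apply Subtype.ext
  show (f : LaurentSeries Qb) * coeffMap A.subtype b =
    ((mrgPi (M * p) π ^ n : modularFunctionFieldBar (M * p)) : LaurentSeries Qb) *
      coeffMap A.subtype a
  rw [heq, mrgPi, ← map_zpow₀, grdga_coe_algebraMap]

theorem mrg_pi_S :
    MrgaS (ttrV1 M A hpM hA) (mrgS (M * p) σ) (mrgPi (M * p) π) (mrgPi (M * p) π) :=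
  mrg_const_S hpM hA hP.pi_ne hP.pi_mem (hP.triv π hP.pi_fix hP.pi_mem)

/-- **(VG) at `V₁`.** -/
theorem mrg_vg₁ : MrgVG (M * p) H π (ttrV1 M A hpM hA) := by
  intro f hf hf0
  obtain ⟨n, aF, bF, haS, ha', ha0, hbS, hb', hb0, heq⟩ := mrg_setup₁ hpM hA hP hf hf0
  have hπ0 := mrg_pi_ne (M := M) (p := p) hP.pi_ne
  have e : f * mrgPi (M * p) π ^ (-n) = aF * bF⁻¹ := by
    have h1 : f = mrgPi (M * p) π ^ n * aF * bF⁻¹ := by
      rw [← heq, mul_assoc, mul_inv_cancel₀ hb0, mul_one]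
    rw [h1, zpow_neg]
    have := zpow_ne_zero n hπ0
    field_simp
  refine ⟨n, ?_, ?_⟩
  · rw [e]; exact mul_mem haS.1 hb'
  · rw [e, mul_inv, inv_inv]; exact mul_mem ha' hbS.1

/-- **(MOVE), weak form, at `V₁`.** -/
theorem mrg_moveW₁ : MrgMoveW (M * p) H σ π (ttrV1 M A hpM hA) := by
  intro f hf hf0
  have hσ : IsInertial A σ := isInertial_of_mem_inertiaSubgroupIn A σ hP.inertial
  obtain ⟨n, aF, bF, haS, ha', ha0, hbS, hb', hb0, heq⟩ := mrg_setup₁ hpM hA hP hf hf0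
  exact (mrga_move (mrg_hs hpM hA hσ) (mrg_pi_ne hP.pi_ne)
    (mrg_pi_inv_not_mem hpM hA hP.pi_nonunit) (mrg_pi_S hpM hA hP)
    haS ha' ha0 hbS hb' hb0 n heq).1.2

/-- **(MOVE), strong form, at `V₁`.** -/
theorem mrg_move₁ : MrgMove (M * p) H σ π (ttrV1 M A hpM hA) := by
  intro f hf hfV
  have hσ : IsInertial A σ := isInertial_of_mem_inertiaSubgroupIn A σ hP.inertial
  by_cases hf0 : f = 0
  · rw [hf0, smul_zero, sub_self, zero_div]; exact zero_mem _
  obtain ⟨n, aF, bF, haS, ha', ha0, hbS, hb', hb0, heq⟩ := mrg_setup₁ hpM hA hP hf hf0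
  exact ((mrga_move (mrg_hs hpM hA hσ) (mrg_pi_ne hP.pi_ne)
    (mrg_pi_inv_not_mem hpM hA hP.pi_nonunit) (mrg_pi_S hpM hA hP)
    haS ha' ha0 hbS hb' hb0 n heq).2 hfV).2

end Main

end V1

end Fermat.Agent.MR
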