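import Mathlib
import Fermat.Agent.MR.Gal.Move

/-!
# PROGRAM MR (S44), block `mrg` (owner helper9) : the second valuation `V₂ = w⁻¹ V₁`, the stability
of `F_L`, and **`MrgOutSpec`** (prefix `mrg`)

* `mrg_w_mem_FL`   : the Atkin-Lehner involution `w = ttrW` preserves `F_L` (`ttrw_galois`);
* `mrg_vg₂`, `mrg_move₂`, `mrg_moveW₂` : transport of the three statements along `w`;
* `mrg_stable`     : `σ F_L ⊆ F_L`, `π ∈ F_L`;
* **`mrg_out : MrgOutSpec M A hpM hA H σ π`** and `mrg_core_spec : MrgCoreSpec …`.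
-/

set_option autoImplicit false
set_option linter.unusedSectionVars false
set_option linter.unusedVariables false
set_option linter.style.haveILetI false
set_option synthInstance.maxHeartbeats 400000

noncomputable section

namespace Fermat.Agent.MR

open Polynomial ModularCurve AlgebraicCurve IsLocalRing IntermediateField
  Fermat.Agent.G Fermat.Agent.S18 Fermat.Agent.SS Fermat.Agent.FF Fermat.Agent.TT
  Fermat.Agent.S05

local notation "Qb" => AlgebraicClosure ℚ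
local notation "GQ" => (AlgebraicClosure ℚ ≃ₐ[ℚ] AlgebraicClosure ℚ)

variable {M : ℕ} [NeZero M] {p : ℕ} [Fact p.Prime] [NeZero p]
variable {A : ValuationSubring Qb} (hpM : ¬ p ∣ M) (hA : A.LiesOverPrime p)
variable {H : Subgroup GQ} {σ : GQ} {π : Qb}

/-- `w` preserves `F_L`. -/
theorem mrg_w_mem_FL {f : modularFunctionFieldBar (M * p)} (hf : f ∈ mrgFL (M * p) H) :
    ttrW M hpM f ∈ mrgFL (M * p) H := by
  intro τ hτ
  rw [ttrw_galois M hpM τ f, hf τ hτ]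

theorem mrg_w_pi_zpow (n : ℤ) :
    ttrW M hpM (mrgPi (M * p) π ^ n) = mrgPi (M * p) π ^ n := by
  rw [map_zpow₀, mrgPi, ttrW_const]

theorem mrg_w_sigma (f : modularFunctionFieldBar (M * p)) :
    ttrW M hpM (ffipG (M * p) σ • f - f) = ffipG (M * p) σ • ttrW M hpM f - ttrW M hpM f := by
  rw [map_sub, ttrw_galois M hpM σ f]

/-- **(VG) at `V₂`.** -/
theorem mrg_vg₂ (h₁ : MrgVG (M * p) H π (ttrV1 M A hpM hA)) :
    MrgVG (M * p) H π (ttraV2 M A hpM hA) := by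
  intro f hf hf0
  have hwf0 : ttrW M hpM f ≠ 0 := (map_ne_zero_iff _ (ttrW M hpM).injective).2 hf0
  obtain ⟨n, h1, h2⟩ := h₁ (ttrW M hpM f) (mrg_w_mem_FL hpM hf) hwf0
  refine ⟨n, ?_, ?_⟩
  · rw [ttal_mem_V2, map_mul, mrg_w_pi_zpow]; exact h1
  · rw [ttal_mem_V2, map_inv₀, map_mul, mrg_w_pi_zpow]; exact h2

/-- **(MOVE), strong form, at `V₂`.** -/
theorem mrg_move₂ (h₁ : MrgMove (M * p) H σ π (ttrV1 M A hpM hA)) :
    MrgMove (M * p) H σ π (ttraV2 M A hpM hA) := by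
  intro f hf hfV
  have h1 := h₁ (ttrW M hpM f) (mrg_w_mem_FL hpM hf) (ttal_mem_V2.1 hfV)
  rw [ttal_mem_V2, map_div₀, mrg_w_sigma, map_pow]
  have e : ttrW M hpM (algebraMap Qb (modularFunctionFieldBar (M * p)) π) =
      algebraMap Qb (modularFunctionFieldBar (M * p)) π := ttrW_const M hpM π
  rw [e]
  exact h1

/-- **(MOVE), weak form, at `V₂`.** -/
theorem mrg_moveW₂ (h₁ : MrgMoveW (M * p) H σ π (ttrV1 M A hpM hA)) :
    MrgMoveW (M * p) H σ π (ttraV2 M A hpM hA) := by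
  intro f hf hf0
  have hwf0 : ttrW M hpM f ≠ 0 := (map_ne_zero_iff _ (ttrW M hpM).injective).2 hf0
  have h1 := h₁ (ttrW M hpM f) (mrg_w_mem_FL hpM hf) hwf0
  rw [ttal_mem_V2, map_div₀, mrg_w_sigma, map_mul]
  have e : ttrW M hpM (algebraMap Qb (modularFunctionFieldBar (M * p)) π) =
      algebraMap Qb (modularFunctionFieldBar (M * p)) π := ttrW_const M hpM π
  rw [e]
  exact h1

/-- `σ F_L ⊆ F_L` and `π ∈ F_L` (any level). -/
theorem mrg_stable (N : ℕ) [NeZero N] (hconj : ∀ τ : GQ, σ * τ * σ⁻¹ ∈ H ↔ τ ∈ H)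
    (hπ : MrgFix H π) : MrgStable N H σ π := by
  refine ⟨fun f hf τ hτ => ?_, fun τ hτ => ?_⟩
  · have h1 : σ⁻¹ * τ * σ ∈ H := by
      rw [← hconj]
      have e : σ * (σ⁻¹ * τ * σ) * σ⁻¹ = τ := by group
      rw [e]; exact hτ
    have h2 := hf _ h1
    have e : ffipG N τ • ffipG N σ • f = ffipG N σ • (ffipG N (σ⁻¹ * τ * σ) • f) := by
      rw [← mul_smul, ← mul_smul, ffipG, ffipG, ffipG, ← map_mul, ← map_mul]
      congr 2
      group
    rw [e, h2]
  · rw [ffipG_algebraMap, hπ τ hτ]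

/-- **LEAF (mrg-1) = `MrgOutSpec`, PROVED.** -/
theorem mrg_out : MrgOutSpec M A hpM hA H σ π := by
  intro hP
  have hvg := mrg_vg₁ hpM hA hP
  have hmv := mrg_move₁ hpM hA hP
  have hmw := mrg_moveW₁ hpM hA hP
  exact ⟨mrg_stable (M * p) hP.conj hP.pi_fix, hvg, mrg_vg₂ hpM hA hvg, hmv, mrg_move₂ hpM hA hmv,
    hmw, mrg_moveW₂ hpM hA hmw⟩

include hpM hA in
/-- **LEAF (mrg-0) = `MrgCoreSpec`, PROVED.** -/
theorem mrg_core_spec : MrgCoreSpec M (p := p) A H σ π :=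
  fun hP => mrg_core M A H hpM hA π hP.pi_fix hP.pi_ne hP.unif

end Fermat.Agent.MR
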