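import Mathlib
import Fermat.Agent.MR.Gal.Out

/-!
# PROGRAM MR (S44), block `mrg` (owner helper9) : `(VG)` FROM A UNIFORMISER ALONE (the TAME / SPLIT
case of (W1), helper12's (G3)) (prefix `mrg`)

For ANY subgroup `H ≤ G_ℚ` and any `H`-fixed `ϖ ≠ 0` such that every non-zero `H`-fixed constant is
`ϖⁿ · (unit of 𝔸)` (NO `σ`, NO `triv`, NO break) : `MrgVG (M p) H ϖ V₁` and `MrgVG (M p) H ϖ V₂`.
Application : `H = I₀ = mraI0 p 𝔸`, `ϖ = 1 - ζ_p` (value group of `K₀ = ℚ_p^nr(ζ_p)` is `ℤ v(1 - ζ)`).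
-/

set_option autoImplicit false
set_option linter.unusedSectionVars false
set_option linter.unusedVariables false
set_option linter.style.haveILetI false
set_option synthInstance.maxHeartbeats 400000

noncomputable section

namespace Fermat.Agent.MR

open Polynomial ModularCurve AlgebraicCurve IsLocalRing IntermediateField
  Fermat.Agent.G Fermat.Agent.S18 Fermat.Agent.SS Fermat.Agent.FF Fermat.Agent.TT
  Fermat.Agent.S05

local notation "Qb" => AlgebraicClosure ℚ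
local notation "GQ" => (AlgebraicClosure ℚ ≃ₐ[ℚ] AlgebraicClosure ℚ)

variable {M : ℕ} [NeZero M] {p : ℕ} [Fact p.Prime] [NeZero p]
variable {A : ValuationSubring Qb} (hpM : ¬ p ∣ M) (hA : A.LiesOverPrime p)
variable {H : Subgroup GQ} {π : Qb}

/-- **(VG) at `V₁` from `unif` alone.** -/
theorem mrg_vg₁_of_unif (hπfix : MrgFix H π) (hπ0 : π ≠ 0)
    (hunif : ∀ y : Qb, MrgFix H y → y ≠ 0 →
      ∃ n : ℤ, y * π ^ (-n) ∈ A ∧ (y * π ^ (-n))⁻¹ ∈ A) :
    MrgVG (M * p) H π (ttrV1 M A hpM hA) := by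
  intro f hf hf0
  obtain ⟨n, a, b, -, -, haF, hbF, hra, hrb, heq⟩ :=
    mrg_core M A H hpM hA π hπfix hπ0 hunif f hf hf0
  have hgooda := (ttr_good_of_gen M A hpM hA a haF).1
  have hgoodb := (ttr_good_of_gen M A hpM hA b hbF).1
  obtain ⟨aF, haFdef⟩ : ∃ x : modularFunctionFieldBar (M * p), x = ⟨coeffMap A.subtype a, haF⟩ :=
    ⟨_, rfl⟩
  obtain ⟨bF, hbFdef⟩ : ∃ x : modularFunctionFieldBar (M * p), x = ⟨coeffMap A.subtype b, hbF⟩ :=
    ⟨_, rfl⟩
  have haV : aF ∈ ttrV1 M A hpM hA := by rw [haFdef]; exact grd_gen_mem hgooda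
  have hbV : bF ∈ ttrV1 M A hpM hA := by rw [hbFdef]; exact grd_gen_mem hgoodb
  have ha' : aF⁻¹ ∈ ttrV1 M A hpM hA := by rw [haFdef]; exact mrg_ser_inv_mem hpM hA a haF hra
  have hb' : bF⁻¹ ∈ ttrV1 M A hpM hA := by rw [hbFdef]; exact mrg_ser_inv_mem hpM hA b hbF hrb
  have hb0 : bF ≠ 0 := by
    intro h0
    apply hrb
    rw [hbFdef] at h0
    have h1 : coeffMap A.subtype b = 0 := congrArg Subtype.val h0
    have h2 : b = 0 := by
      ext k
      have := congrArg (fun s => HahnSeries.coeff s k) h1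
      simpa using this
    rw [h2, map_zero]
  have heqF : f * bF = mrgPi (M * p) π ^ n * aF := by
    rw [haFdef, hbFdef]
    apply Subtype.ext
    show (f : LaurentSeries Qb) * coeffMap A.subtype b =
      ((mrgPi (M * p) π ^ n : modularFunctionFieldBar (M * p)) : LaurentSeries Qb) *
        coeffMap A.subtype a
    rw [heq, mrgPi, ← map_zpow₀, grdga_coe_algebraMap]
  have hπF0 := mrg_pi_ne (M := M) (p := p) hπ0
  have e : f * mrgPi (M * p) π ^ (-n) = aF * bF⁻¹ := by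
    have h1 : f = mrgPi (M * p) π ^ n * aF * bF⁻¹ := by
      rw [← heqF, mul_assoc, mul_inv_cancel₀ hb0, mul_one]
    rw [h1, zpow_neg]
    have := zpow_ne_zero n hπF0
    field_simp
  refine ⟨n, ?_, ?_⟩
  · rw [e]; exact mul_mem haV hb'
  · rw [e, mul_inv, inv_inv]; exact mul_mem ha' hbV

/-- **(VG) at `V₂` from `unif` alone.** -/
theorem mrg_vg₂_of_unif (hπfix : MrgFix H π) (hπ0 : π ≠ 0)
    (hunif : ∀ y : Qb, MrgFix H y → y ≠ 0 →
      ∃ n : ℤ, y * π ^ (-n) ∈ A ∧ (y * π ^ (-n))⁻¹ ∈ A) :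
    MrgVG (M * p) H π (ttraV2 M A hpM hA) :=
  mrg_vg₂ hpM hA (mrg_vg₁_of_unif hpM hA hπfix hπ0 hunif)

/-- the valuation form of `unif` : `v y = v ϖ ^ n`. -/
theorem mrg_unif_of_val (hπ0 : π ≠ 0)
    (hvg : ∀ y : Qb, MrgFix H y → y ≠ 0 → ∃ n : ℤ, A.valuation y = A.valuation π ^ n) :
    ∀ y : Qb, MrgFix H y → y ≠ 0 → ∃ n : ℤ, y * π ^ (-n) ∈ A ∧ (y * π ^ (-n))⁻¹ ∈ A := by
  intro y hy hy0
  have hv0 : A.valuation π ≠ 0 := (A.valuation.ne_zero_iff).mpr hπ0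
  obtain ⟨n, hn⟩ := hvg y hy hy0
  have hv : A.valuation (y * π ^ (-n)) = 1 := by
    rw [map_mul, map_zpow₀, hn, ← zpow_add₀ hv0, add_neg_cancel, zpow_zero]
  refine ⟨n, (A.valuation_le_one_iff _).mp hv.le, (A.valuation_le_one_iff _).mp ?_⟩
  rw [map_inv₀, hv, inv_one]

end Fermat.Agent.MR
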