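import Mathlib
import Fermat.Agent.MR.Gal.Spec
import Fermat.Agent.TT.Red2.Red2Inst
import Fermat.Agent.TT.Red2.IntoInst
import Fermat.Agent.TT.Red2.IntoNodeS

/-!
# PROGRAM MR (S44), block `mrg` (owner helper9) : THE CENTRE SETS ARE STABLE UNDER INERTIA
(helper12's (G2); prefix `mrg`)

For `σ` in the inertia group `I = ffI 𝔸`, acting on the places of `F_ℚ̄(M p)` through
`ffipG (M p) σ` :

* `mrg_red₁_smul`, `mrg_red₂_smul` : `red_j (σ x) = red_j x` on `O2 = V₁ ⊓ V₂` (landed `move_j`,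
  `ker_j`);
* `mrg_cenC₁_smul`, `mrg_cenC₂_smul` : the centre predicates in ONE chart;
* **`mrg_cen₁_smul`, `mrg_cen₂_smul`** : `ttrglCen_j … hat Q v → ttrglCen_j … hat Q (σ • v)`;
* **`mrg_cenS_smul`** : `ttruCenS … hat i v → ttruCenS … hat i (σ • v)`;
* the `σ⁻¹`-forms `mrg_cen₁_inv_smul`, `mrg_cen₂_inv_smul`, `mrg_cenS_inv_smul` (the shape of the
  hypotheses of `MrrDivSpec`).
-/

set_option autoImplicit false
set_option linter.unusedSectionVars false
set_option linter.unusedVariables false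
set_option linter.style.haveILetI false
set_option synthInstance.maxHeartbeats 400000

noncomputable section

namespace Fermat.Agent.MR

open Polynomial ModularCurve AlgebraicCurve IsLocalRing IntermediateField Classical
  Fermat.Agent.G Fermat.Agent.S18 Fermat.Agent.S24 Fermat.Agent.SS Fermat.Agent.FF
  Fermat.Agent.TT Fermat.Agent.S05

local notation "Qb" => AlgebraicClosure ℚ
local notation "GQ" => (AlgebraicClosure ℚ ≃ₐ[ℚ] AlgebraicClosure ℚ)

set_option synthInstance.maxHeartbeats 800000 in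
/-- instance shortcut (the generic search through `ResidueField` is very slow). -/
local instance mrgInstF' (A : ValuationSubring Qb) (M : ℕ) [NeZero M] :
    Field ↥(modularFunctionFieldFullC (ResidueField A) M) := inferInstance

set_option synthInstance.maxHeartbeats 800000 in
/-- instance shortcut (the generic search through `ResidueField` is very slow). -/
local instance mrgInstA' (A : ValuationSubring Qb) (M : ℕ) [NeZero M] :
    Algebra (ResidueField A) ↥(modularFunctionFieldFullC (ResidueField A) M) := inferInstance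

/-! ### abstract : a reduction killed by `move` -/

section Abs

variable {F Fk : Type*} [Field F] [Field Fk]

/-- `move` + `ker` ⟹ `s` preserves `V` and `red (s x) = red x`. -/
theorem mrg_red_of_move (V : ValuationSubring F) (red : ↥V.toSubring →+* Fk)
    (ker : ∀ x : ↥V.toSubring, red x = 0 ↔ (x : F) ∈ V.nonunits) (s : F → F)
    (move : ∀ x ∈ V, s x - x ∈ V.nonunits) (x : F) (hx : x ∈ V) :
    ∃ h : s x ∈ V, red ⟨s x, h⟩ = red ⟨x, hx⟩ := by
  have hm := move x hx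
  have hdV : s x - x ∈ V := (ValuationSubring.mem_nonunits_iff_exists_mem_maximalIdeal.1 hm).1
  have hsV : s x ∈ V := by
    have := V.add_mem _ _ hdV hx
    rwa [sub_add_cancel] at this
  refine ⟨hsV, ?_⟩
  have h0 : red ⟨s x - x, hdV⟩ = 0 := (ker ⟨s x - x, hdV⟩).2 hm
  have e : (⟨s x, hsV⟩ : ↥V.toSubring) = ⟨s x - x, hdV⟩ + ⟨x, hx⟩ := by
    apply Subtype.ext
    show s x = s x - x + x
    ring
  rw [e, map_add, h0, zero_add]

end Abs

/-! ### abstract : the centre predicate under a semilinear automorphism -/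

section AbsCen

variable {K F : Type*} [Field K] [Field F] [Algebra K F] (A : ValuationSubring K)

/-- the centre predicate `ttruCen` is stable under a semilinear automorphism `g` preserving `𝔸`,
`𝔪_𝔸`, the coordinate `u`, the chart ring `B` and the ideal `𝔫` of the closed point. -/
theorem mrg_cen_smul_abs (B : Subring F) (u : F) (𝔫 : Ideal ↥B) (g : SemilinearAut K F)
    (hgA : ∀ a : A, ∃ a' : A, (a' : K) = SemilinearAut.baseAut g (a : K) ∧
      (a ∈ maximalIdeal A → a' ∈ maximalIdeal A))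
    (hgu : g • u = u)
    (hB : ∀ b : ↥B, ∃ b' : ↥B, g • (b' : F) = (b : F) ∧ (b ∈ 𝔫 → b' ∈ 𝔫))
    {v : Place K F} (hv : ttruCen A B u 𝔫 v) : ttruCen A B u 𝔫 (g • v) := by
  obtain ⟨⟨a, ha⟩, hn⟩ := hv
  refine ⟨?_, fun b hb => ?_⟩
  · obtain ⟨a', ha', -⟩ := hgA a
    refine ⟨a', ?_⟩
    have h := ffip_val_smul g v ha
    rwa [hgu, ← ha'] at h
  · obtain ⟨b', hb', hb'n⟩ := hB b
    obtain ⟨a, ham, ha⟩ := hn b' (hb'n hb)
    obtain ⟨a', ha', ham'⟩ := hgA a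
    refine ⟨a', ham' ham, ?_⟩
    have h := ffip_val_smul g v ha
    rwa [hb', ← ha'] at h

end AbsCen

section Level

variable (M : ℕ) [NeZero M] {p : ℕ} [Fact p.Prime] [NeZero p]
variable (A : ValuationSubring Qb) (hpM : ¬ p ∣ M) (hA : A.LiesOverPrime p)

/-- `α` commutes with the coefficientwise Galois action. -/
theorem mrg_alpha_smul (σ : GQ) (x : modularFunctionFieldBar M) :
    ffipG (M * p) σ • heckeAlphaBar Qb M p x = heckeAlphaBar Qb M p (ffipG M σ • x) := by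
  apply Subtype.ext
  rw [coe_heckeAlphaBar, ffipG_coe, ffipG_coe, coe_heckeAlphaBar]

/-- `β` commutes with the coefficientwise Galois action. -/
theorem mrg_beta_smul (σ : GQ) (x : modularFunctionFieldBar M) :
    ffipG (M * p) σ • heckeBetaBar Qb M p x = heckeBetaBar Qb M p (ffipG M σ • x) := by
  apply Subtype.ext
  rw [coe_heckeBetaBar, ffipG_coe, ffipG_coe, coe_heckeBetaBar, coeffMap_qExpand]

variable {M A}

/-- `σ ∈ I` preserves `O2 = V₁ ⊓ V₂` and `red₁`. -/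
theorem mrg_red₁_smul {σ : GQ} (hσ : σ ∈ ffI A) (y : ↥(ttrglO2 M A hpM hA)) :
    ∃ h : ffipG (M * p) σ • (y : modularFunctionFieldBar (M * p)) ∈ ttrglO2 M A hpM hA,
      ttrglRed₁ M A hpM hA ⟨_, h⟩ = ttrglRed₁ M A hpM hA y := by
  obtain ⟨h1, e1⟩ := mrg_red_of_move (ttrV1 M A hpM hA) (ttraRed1 M A hpM hA)
    (ttra_ker₁ M A hpM hA (ttra_h₁ M A hpM hA)) (fun x => ffipG (M * p) σ • x)
    (fun x hx => ttra_move₁ M A hpM hA ⟨σ, hσ⟩ x hx) y.1 y.2.1
  obtain ⟨h2, -⟩ := mrg_red_of_move (ttraV2 M A hpM hA) (ttraRed2 M A hpM hA)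
    (ttra_ker₂ M A hpM hA (ttra_h₁ M A hpM hA)) (fun x => ffipG (M * p) σ • x)
    (fun x hx => ttra_move₂ M A hpM hA (ttra_hcomm M A hpM) ⟨σ, hσ⟩ x hx) y.1 y.2.2
  exact ⟨⟨h1, h2⟩, e1⟩

/-- `σ ∈ I` preserves `O2 = V₁ ⊓ V₂` and `red₂`. -/
theorem mrg_red₂_smul {σ : GQ} (hσ : σ ∈ ffI A) (y : ↥(ttrglO2 M A hpM hA)) :
    ∃ h : ffipG (M * p) σ • (y : modularFunctionFieldBar (M * p)) ∈ ttrglO2 M A hpM hA,
      ttrglRed₂ M A hpM hA ⟨_, h⟩ = ttrglRed₂ M A hpM hA y := by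
  obtain ⟨h1, -⟩ := mrg_red_of_move (ttrV1 M A hpM hA) (ttraRed1 M A hpM hA)
    (ttra_ker₁ M A hpM hA (ttra_h₁ M A hpM hA)) (fun x => ffipG (M * p) σ • x)
    (fun x hx => ttra_move₁ M A hpM hA ⟨σ, hσ⟩ x hx) y.1 y.2.1
  obtain ⟨h2, e2⟩ := mrg_red_of_move (ttraV2 M A hpM hA) (ttraRed2 M A hpM hA)
    (ttra_ker₂ M A hpM hA (ttra_h₁ M A hpM hA)) (fun x => ffipG (M * p) σ • x)
    (fun x hx => ttra_move₂ M A hpM hA (ttra_hcomm M A hpM) ⟨σ, hσ⟩ x hx) y.1 y.2.2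
  exact ⟨⟨h1, h2⟩, e2⟩

end Level

/-! ### the centre predicates -/

section Cen

variable {M : ℕ} [NeZero M] {p : ℕ} [Fact p.Prime] [NeZero p]
variable {A : ValuationSubring Qb} (hpM : ¬ p ∣ M) (hA : A.LiesOverPrime p)

/-- `σ ∈ I` preserves `𝔸` and `𝔪_𝔸`. -/
theorem mrg_hgA {σ : GQ} (hσ : σ ∈ ffI A) (N : ℕ) [NeZero N] :
    ∀ a : A, ∃ a' : A, (a' : Qb) = SemilinearAut.baseAut (ffipG N σ) (a : Qb) ∧
      (a ∈ maximalIdeal A → a' ∈ maximalIdeal A) := by
  intro a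
  have hσI : IsInertial A σ := isInertial_of_mem_inertiaSubgroupIn A σ hσ
  refine ⟨ffipResA hσI a, rfl, fun ha => ?_⟩
  rw [← residue_eq_zero_iff] at ha ⊢
  rw [ffipResA_residue, ha]

/-- a Galois-fixed coordinate : the chart ring is stable under `σ ∈ I`. -/
theorem mrg_smul_mem_grdB {σ : GQ} (hσ : σ ∈ ffI A) {N : ℕ} [NeZero N]
    {u : modularFunctionFieldBar N} (hu : ∀ τ : GQ, ffipG N τ • u = u)
    {x : modularFunctionFieldBar N} (hx : x ∈ grdB N A u) : ffipG N σ • x ∈ grdB N A u :=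
  ffip_isInt_smul N (isInertial_of_mem_inertiaSubgroupIn A σ hσ) (hu σ) hx

/-- the `α`-coordinate is Galois-fixed. -/
theorem mrg_alpha_coord_fixed {υ : LaurentSeries ℤ} (hυ : GrdSerMem M υ) (τ : GQ) :
    ffipG (M * p) τ • heckeAlphaBar Qb M p (grdQ M hυ) = heckeAlphaBar Qb M p (grdQ M hυ) := by
  rw [mrg_alpha_smul, ffipG_coord]

/-- the `β`-coordinate is Galois-fixed. -/
theorem mrg_beta_coord_fixed {υ : LaurentSeries ℤ} (hυ : GrdSerMem M υ) (τ : GQ) :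
    ffipG (M * p) τ • heckeBetaBar Qb M p (grdQ M hυ) = heckeBetaBar Qb M p (grdQ M hυ) := by
  rw [mrg_beta_smul, ffipG_coord]

/-- the hypothesis `hB` of `mrg_cen_smul_abs` for a chart ring `B = grdB (M p) 𝔸 u ≤ O2` with a
Galois-fixed coordinate and the ideal `ttalN … red Q` of a reduction `red` with
`red (σ y) = red y`. -/
theorem mrg_hB {σ : GQ} (hσ : σ ∈ ffI A) {u : modularFunctionFieldBar (M * p)}
    (hu : ∀ τ : GQ, ffipG (M * p) τ • u = u)
    (hBO : grdB (M * p) A u ≤ ttrglO2 M A hpM hA)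
    (red : ↥(ttrglO2 M A hpM hA) →+* ↥(modularFunctionFieldFullC (ResidueField A) M))
    (hred : ∀ {τ : GQ}, τ ∈ ffI A → ∀ y : ↥(ttrglO2 M A hpM hA),
      ∃ h : ffipG (M * p) τ • (y : modularFunctionFieldBar (M * p)) ∈ ttrglO2 M A hpM hA,
        red ⟨_, h⟩ = red y)
    (Q : Place (ResidueField A) ↥(modularFunctionFieldFullC (ResidueField A) M))
    (b : ↥(grdB (M * p) A u)) :
    ∃ b' : ↥(grdB (M * p) A u),
      ffipG (M * p) σ • (b' : modularFunctionFieldBar (M * p)) = (b : _) ∧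
      (b ∈ ttalN (ttrglO2 M A hpM hA) (grdB (M * p) A u) hBO red Q →
        b' ∈ ttalN (ttrglO2 M A hpM hA) (grdB (M * p) A u) hBO red Q) := by
  have hσinv : σ⁻¹ ∈ ffI A := inv_mem hσ
  refine ⟨⟨ffipG (M * p) σ⁻¹ • (b : modularFunctionFieldBar (M * p)),
    mrg_smul_mem_grdB hσinv hu b.2⟩, ffipG_smul_inv (M * p) σ _, fun hb c => ?_⟩
  -- `c * σ⁻¹ b = σ⁻¹ (σ c * b)`
  obtain ⟨c', hc'⟩ : ∃ c' : ↥(grdB (M * p) A u),
      (c' : modularFunctionFieldBar (M * p)) = ffipG (M * p) σ • (c : _) :=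
    ⟨⟨_, mrg_smul_mem_grdB hσ hu c.2⟩, rfl⟩
  obtain ⟨h, e⟩ := hred hσinv ⟨((c' * b : ↥(grdB (M * p) A u)) : _), hBO (c' * b).2⟩
  have hval := hb c'
  rw [← e] at hval
  have e2 : (⟨ffipG (M * p) σ⁻¹ • ((c' * b : ↥(grdB (M * p) A u)) :
      modularFunctionFieldBar (M * p)), h⟩ : ↥(ttrglO2 M A hpM hA)) =
      ⟨((c * ⟨ffipG (M * p) σ⁻¹ • (b : modularFunctionFieldBar (M * p)),
        mrg_smul_mem_grdB hσinv hu b.2⟩ : ↥(grdB (M * p) A u)) : _), hBO (c * _).2⟩ := by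
    apply Subtype.ext
    show ffipG (M * p) σ⁻¹ • ((c' : modularFunctionFieldBar (M * p)) * (b : _)) =
      (c : modularFunctionFieldBar (M * p)) * (ffipG (M * p) σ⁻¹ • (b : _))
    rw [smul_mul', hc', ffipG_inv_smul]
  rw [e2] at hval
  exact hval

/-- **the centre predicate in one chart, index 1, is stable under inertia.** -/
theorem mrg_cenC₁_smul {σ : GQ} (hσ : σ ∈ ffI A) {υ : LaurentSeries ℤ} (hc : GrdChart M A υ)
    (Q : Place (ResidueField A) ↥(modularFunctionFieldFullC (ResidueField A) M))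
    {v : Place Qb ↥(modularFunctionFieldBar (M * p))} (hv : ttrglCenC₁ M A hpM hA hc Q v) :
    ttrglCenC₁ M A hpM hA hc Q (ffipG (M * p) σ • v) :=
  mrg_cen_smul_abs A _ _ _ (ffipG (M * p) σ) (mrg_hgA hσ (M * p))
    (mrg_alpha_coord_fixed hc.mem σ)
    (mrg_hB hpM hA hσ (mrg_alpha_coord_fixed hc.mem) (ttrgl_le₁ M A hpM hA hc)
      (ttrglRed₁ M A hpM hA) (fun hτ y => mrg_red₁_smul hpM hA hτ y) Q) hv

/-- **the centre predicate in one chart, index 2, is stable under inertia.** -/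
theorem mrg_cenC₂_smul {σ : GQ} (hσ : σ ∈ ffI A) {υ : LaurentSeries ℤ} (hc : GrdChart M A υ)
    (Q : Place (ResidueField A) ↥(modularFunctionFieldFullC (ResidueField A) M))
    {v : Place Qb ↥(modularFunctionFieldBar (M * p))} (hv : ttrglCenC₂ M A hpM hA hc Q v) :
    ttrglCenC₂ M A hpM hA hc Q (ffipG (M * p) σ • v) :=
  mrg_cen_smul_abs A _ _ _ (ffipG (M * p) σ) (mrg_hgA hσ (M * p))
    (mrg_beta_coord_fixed hc.mem σ)
    (mrg_hB hpM hA hσ (mrg_beta_coord_fixed hc.mem) (ttrgl_le₂ M A hpM hA hc)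
      (ttrglRed₂ M A hpM hA) (fun hτ y => mrg_red₂_smul hpM hA hτ y) Q) hv

variable {τ τ' : LaurentSeries ℤ} (hat : GrdAtlas M A τ τ')

/-- **`ttrglCen₁` is stable under inertia.** -/
theorem mrg_cen₁_smul {σ : GQ} (hσ : σ ∈ ffI A)
    (Q : Place (ResidueField A) ↥(modularFunctionFieldFullC (ResidueField A) M))
    {v : Place Qb ↥(modularFunctionFieldBar (M * p))} (hv : ttrglCen₁ M A hpM hA hat Q v) :
    ttrglCen₁ M A hpM hA hat Q (ffipG (M * p) σ • v) := by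
  unfold ttrglCen₁ at hv ⊢
  split_ifs at hv ⊢ with h
  · exact mrg_cenC₁_smul hpM hA hσ hat.c Q hv
  · exact mrg_cenC₁_smul hpM hA hσ hat.c' Q hv

/-- **`ttrglCen₂` is stable under inertia.** -/
theorem mrg_cen₂_smul {σ : GQ} (hσ : σ ∈ ffI A)
    (Q : Place (ResidueField A) ↥(modularFunctionFieldFullC (ResidueField A) M))
    {v : Place Qb ↥(modularFunctionFieldBar (M * p))} (hv : ttrglCen₂ M A hpM hA hat Q v) :
    ttrglCen₂ M A hpM hA hat Q (ffipG (M * p) σ • v) := by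
  unfold ttrglCen₂ at hv ⊢
  split_ifs at hv ⊢ with h
  · exact mrg_cenC₂_smul hpM hA hσ hat.c Q hv
  · exact mrg_cenC₂_smul hpM hA hσ hat.c' Q hv

/-- **`ttruCenN` (the places centred under a branch `Q₁`) is stable under inertia.** -/
theorem mrg_cenN_smul {σ : GQ} (hσ : σ ∈ ffI A) {υ : LaurentSeries ℤ} (hc : GrdChart M A υ)
    (Q₁ : Place (ResidueField A) ↥(modularFunctionFieldFullC (ResidueField A) M))
    {v : Place Qb ↥(modularFunctionFieldBar (M * p))} (hv : ttruCenN M A hpM hA hc Q₁ v) :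
    ttruCenN M A hpM hA hc Q₁ (ffipG (M * p) σ • v) := by
  have hσinv : σ⁻¹ ∈ ffI A := inv_mem hσ
  obtain ⟨⟨a, ha⟩, hn⟩ := hv
  refine ⟨?_, fun b hb => ?_⟩
  · obtain ⟨a', ha', -⟩ := mrg_hgA hσ (M * p) a
    refine ⟨a', ?_⟩
    have h := ffip_val_smul (ffipG (M * p) σ) v ha
    rwa [mrg_alpha_coord_fixed hc.mem σ, ← ha'] at h
  · obtain ⟨b', hb'⟩ : ∃ b' : ↥(grdB (M * p) A (heckeAlphaBar Qb M p (grdQ M hc.mem))),
        (b' : modularFunctionFieldBar (M * p)) = ffipG (M * p) σ⁻¹ • (b : _) :=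
      ⟨⟨_, mrg_smul_mem_grdB hσinv (mrg_alpha_coord_fixed hc.mem) b.2⟩, rfl⟩
    obtain ⟨h, e⟩ := mrg_red₁_smul hpM hA hσinv ⟨(b : _), ttru_le_inst M A hpM hA hc b.2⟩
    have hb'0 : GrdVal Q₁ (ttalRedO₁ (V₂ := ttraV2 M A hpM hA) (ttraRed1 M A hpM hA)
        ⟨b', ttru_le_inst M A hpM hA hc b'.2⟩) 0 := by
      have e2 : (⟨(b' : modularFunctionFieldBar (M * p)), ttru_le_inst M A hpM hA hc b'.2⟩ :
          ↥(ttrglO2 M A hpM hA)) = ⟨ffipG (M * p) σ⁻¹ • (b : _), h⟩ := Subtype.ext hb'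
      rw [e2]
      have e3 : ttalRedO₁ (V₂ := ttraV2 M A hpM hA) (ttraRed1 M A hpM hA)
          ⟨ffipG (M * p) σ⁻¹ • (b : modularFunctionFieldBar (M * p)), h⟩ =
          ttalRedO₁ (V₂ := ttraV2 M A hpM hA) (ttraRed1 M A hpM hA)
            ⟨(b : _), ttru_le_inst M A hpM hA hc b.2⟩ := e
      rw [e3]
      exact hb
    obtain ⟨a, ham, ha⟩ := hn b' hb'0
    obtain ⟨a', ha', ham'⟩ := mrg_hgA hσ (M * p) a
    refine ⟨a', ham' ham, ?_⟩
    have h2 := ffip_val_smul (ffipG (M * p) σ) v ha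
    rwa [hb', ffipG_smul_inv, ← ha'] at h2

/-- **`ttruCenS` (the places centred at the node `i`) is stable under inertia.** -/
theorem mrg_cenS_smul {σ : GQ} (hσ : σ ∈ ffI A) (i : ttrkS M p A hpM hA hat)
    {v : Place Qb ↥(modularFunctionFieldBar (M * p))} (hv : ttruCenS M A hpM hA hat i v) :
    ttruCenS M A hpM hA hat i (ffipG (M * p) σ • v) :=
  mrg_cenN_smul hpM hA hσ hat.c _ hv

/-! #### the `σ⁻¹`-forms (hypotheses of `MrrDivSpec`) -/

theorem mrg_cen₁_inv_smul {σ : GQ} (hσ : σ ∈ ffI A)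
    (Q : Place (ResidueField A) ↥(modularFunctionFieldFullC (ResidueField A) M))
    {v : Place Qb ↥(modularFunctionFieldBar (M * p))} (hv : ttrglCen₁ M A hpM hA hat Q v) :
    ttrglCen₁ M A hpM hA hat Q ((ffipG (M * p) σ)⁻¹ • v) := by
  have h := mrg_cen₁_smul hpM hA hat (inv_mem hσ) Q hv
  rwa [ffipG, map_inv] at h

theorem mrg_cen₂_inv_smul {σ : GQ} (hσ : σ ∈ ffI A)
    (Q : Place (ResidueField A) ↥(modularFunctionFieldFullC (ResidueField A) M))
    {v : Place Qb ↥(modularFunctionFieldBar (M * p))} (hv : ttrglCen₂ M A hpM hA hat Q v) :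
    ttrglCen₂ M A hpM hA hat Q ((ffipG (M * p) σ)⁻¹ • v) := by
  have h := mrg_cen₂_smul hpM hA hat (inv_mem hσ) Q hv
  rwa [ffipG, map_inv] at h

theorem mrg_cenS_inv_smul {σ : GQ} (hσ : σ ∈ ffI A) (i : ttrkS M p A hpM hA hat)
    {v : Place Qb ↥(modularFunctionFieldBar (M * p))} (hv : ttruCenS M A hpM hA hat i v) :
    ttruCenS M A hpM hA hat i ((ffipG (M * p) σ)⁻¹ • v) := by
  have h := mrg_cenS_smul hpM hA hat (inv_mem hσ) i hv
  rwa [ffipG, map_inv] at h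

end Cen

end Fermat.Agent.MR
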