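import Mathlib
import Fermat.Agent.MR.Gal.Core
import Fermat.Agent.SQ.Descend.Main
import Fermat.Agent.SQ.Descend.Class

/-!
# PROGRAM MR (S44), block `mrg` (owner helper9) : DESCENT OF AN `H`-FIXED TORSION CLASS
(prefix `mrg`)

The generalisation of `SQ/Descend/Main.lean` from the inertia group to an ARBITRARY subgroup
`H ≤ G_ℚ`.

* `mrg_descend_E` : inside `F_E(N)`, `E / ℚ` finite normal : `g` with `τ g / g ∈ (F_E(N)ˣ)ⁿ` for
  every `τ` in the image of `H` ⟹ `lc(g)⁻¹ g bⁿ ∈ ι F_{E'}(N)` (cocycle normalised at `∞`, Hilbert 90,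
  `mrgf_fixed`);
* `mrg_descend`   : `g ∈ F_ℚ̄(N)ˣ` with `τ g / g ∈ (F_ℚ̄(N)ˣ)ⁿ` for every `τ ∈ H` ⟹ `c g bⁿ ∈ F_L`.
-/

set_option autoImplicit false
set_option linter.unusedSectionVars false
set_option linter.unusedVariables false
set_option linter.style.haveILetI false
set_option synthInstance.maxHeartbeats 400000

noncomputable section

namespace Fermat.Agent.MR

open Polynomial ModularCurve AlgebraicCurve IntermediateField Fermat.Agent.S18 Fermat.Agent.SS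
  Fermat.Agent.S24 Fermat.Agent.SQ Fermat.Agent.FF

local notation "Qb" => AlgebraicClosure ℚ
local notation "GQ" => (AlgebraicClosure ℚ ≃ₐ[ℚ] AlgebraicClosure ℚ)

variable (H : Subgroup GQ) (E : IntermediateField ℚ Qb) (N : ℕ) [NeZero N]

/-- the action of the image `H_E ⊂ Gal(E/ℚ)` of `H` on `F_E(N)` -/
def mrgRho [Normal ℚ E] :
    ↥(mrgfH H E) →* (modularFunctionFieldFullC E N ≃+* modularFunctionFieldFullC E N) where
  toFun τ := ssdAutRing E N (τ : E ≃ₐ[ℚ] E)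
  map_one' := by
    have h := congrArg SemilinearAut.toRingAut (map_one (ssdAut E N))
    exact h
  map_mul' σ τ := by
    have h := congrArg SemilinearAut.toRingAut
      (map_mul (ssdAut E N) (σ : E ≃ₐ[ℚ] E) (τ : E ≃ₐ[ℚ] E))
    exact h

theorem mrgRho_apply [Normal ℚ E] (τ : ↥(mrgfH H E)) (y : modularFunctionFieldFullC E N) :
    mrgRho H E N τ y = ssdAutRing E N (τ : E ≃ₐ[ℚ] E) y := rfl

theorem mrgRho_injective [Normal ℚ E] : Function.Injective (mrgRho H E N) := by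
  intro σ τ h
  apply Subtype.ext
  apply AlgEquiv.ext
  intro c
  have h1 := congrArg (fun f : modularFunctionFieldFullC E N ≃+* modularFunctionFieldFullC E N =>
    f (algebraMap E (modularFunctionFieldFullC E N) c)) h
  simp only [mrgRho_apply, ssdAutRing_algebraMap] at h1
  exact (algebraMap E (modularFunctionFieldFullC E N)).injective h1

set_option maxHeartbeats 1000000 in
/-- **THE DESCENT INSIDE `F_E(N)`** (cocycle normalised at `∞` + Hilbert 90 + fixed field). -/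
theorem mrg_descend_E [FiniteDimensional ℚ E] [Normal ℚ E] (n : ℕ) (hn : n ≠ 0)
    (g : modularFunctionFieldFullC E N) (hg : g ≠ 0)
    (hfix : ∀ τ ∈ mrgfH H E, ∃ h : modularFunctionFieldFullC E N,
      ssdAutRing E N τ g = g * h ^ n) :
    ∃ (f : modularFunctionFieldFullC (mrgfE0 H E) N) (b : modularFunctionFieldFullC E N),
      b ≠ 0 ∧ mrgfIota H E N f = sqdNorm E N g * b ^ n := by
  classical
  -- the normalised function
  obtain ⟨g₁, hg₁⟩ : ∃ x, x = sqdNorm E N g := ⟨_, rfl⟩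
  have hg₁0 : g₁ ≠ 0 := hg₁ ▸ sqdNorm_ne_zero E N hg
  have hg₁lc : sqdLc E N g₁ = 1 := hg₁ ▸ sqdLc_norm E N hg
  -- the roots
  have hfix' : ∀ τ : ↥(mrgfH H E), ∃ h : modularFunctionFieldFullC E N,
      ssdAutRing E N (τ : E ≃ₐ[ℚ] E) g = g * h ^ n := fun τ => hfix τ.1 τ.2
  choose h hh using hfix'
  have hh0 : ∀ τ, h τ ≠ 0 := by
    intro τ h0
    have h1 := hh τ
    rw [h0, zero_pow hn, mul_zero] at h1
    exact hg ((map_eq_zero_iff _ (ssdAutRing E N (τ : E ≃ₐ[ℚ] E)).injective).1 h1)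
  -- the normalised roots
  have hkey : ∀ τ : ↥(mrgfH H E),
      ssdAutRing E N (τ : E ≃ₐ[ℚ] E) g₁ = g₁ * sqdNorm E N (h τ) ^ n := by
    intro τ
    have hlc : (τ : E ≃ₐ[ℚ] E) (sqdLc E N g) = sqdLc E N g * sqdLc E N (h τ) ^ n := by
      rw [← sqdLc_aut, hh τ, sqdLc_mul, sqdLc_pow]
    have hc0 : sqdLc E N g ≠ 0 := sqdLc_ne_zero E N hg
    have hd0 : sqdLc E N (h τ) ≠ 0 := sqdLc_ne_zero E N (hh0 τ)
    rw [hg₁]
    unfold sqdNorm
    rw [map_mul, ssdAutRing_algebraMap, hh τ, map_inv₀ ((τ : E ≃ₐ[ℚ] E)), hlc]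
    simp only [map_inv₀, map_mul, map_pow]
    have ha0 : algebraMap E (modularFunctionFieldFullC E N) (sqdLc E N g) ≠ 0 := by
      rw [Ne, map_eq_zero]; exact hc0
    have hb0 : algebraMap E (modularFunctionFieldFullC E N) (sqdLc E N (h τ)) ≠ 0 := by
      rw [Ne, map_eq_zero]; exact hd0
    field_simp
    rw [div_pow, mul_div_cancel₀ _ (pow_ne_zero n hb0)]
  have hf1 : ∀ τ, sqdLc E N (sqdNorm E N (h τ)) = 1 := fun τ => sqdLc_norm E N (hh0 τ)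
  have hf0 : ∀ τ, sqdNorm E N (h τ) ≠ 0 := fun τ => sqdNorm_ne_zero E N (hh0 τ)
  -- the cocycle identity
  have hcoc : ∀ σ τ : ↥(mrgfH H E), sqdNorm E N (h (σ * τ)) =
      sqdNorm E N (h σ) * mrgRho H E N σ (sqdNorm E N (h τ)) := by
    intro σ τ
    have hne : sqdNorm E N (h σ) * mrgRho H E N σ (sqdNorm E N (h τ)) ≠ 0 :=
      mul_ne_zero (hf0 σ) ((map_ne_zero_iff _ (mrgRho H E N σ).injective).2 (hf0 τ))
    refine sqd_eq_of_pow_eq E N n hn hne ?_ (hf1 _) ?_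
    · apply mul_left_cancel₀ hg₁0
      rw [← hkey (σ * τ)]
      have h1 : ssdAutRing E N ((σ * τ : ↥(mrgfH H E)) : E ≃ₐ[ℚ] E) g₁ =
          mrgRho H E N σ (mrgRho H E N τ g₁) := by
        rw [← mrgRho_apply, map_mul]
        rfl
      rw [h1, mrgRho_apply H E N τ, hkey τ, map_mul, mrgRho_apply H E N σ g₁, hkey σ, map_pow,
        mul_pow]
      ring
    · rw [sqdLc_mul, hf1, mrgRho_apply, sqdLc_aut, hf1, map_one, mul_one]
  -- Hilbert 90
  haveI : Finite ↥(mrgfH H E) := inferInstance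
  obtain ⟨b, hb0, hb⟩ := sqdh_hilbert90 (mrgRho H E N) (mrgRho_injective H E N)
    (fun τ => sqdNorm E N (h τ)) hf0 hcoc
  -- the fixed function
  have hfixed : ∀ τ ∈ mrgfH H E, ssdAutRing E N τ (g₁ * b ^ n) = g₁ * b ^ n := by
    intro τ hτ
    have h1 := hkey ⟨τ, hτ⟩
    have h2 := hb ⟨τ, hτ⟩
    rw [mrgRho_apply] at h2
    simp only at h1 h2
    rw [map_mul, h1, map_pow, mul_assoc, ← mul_pow, h2]
  obtain ⟨f, hf⟩ := mrgf_fixed H E N (g₁ * b ^ n) hfixed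
  exact ⟨f, b, hb0, by rw [hf, hg₁]⟩

/-- the image of `F_{E'}(N)` in `F_ℚ̄(N)` consists of `H`-invariant functions. -/
theorem mrg_up_mem_FL (x : modularFunctionFieldFullC (mrgfE0 H E) N) :
    ssdUp (mrgfE0 H E) N x ∈ mrgFL N H := by
  intro τ hτ
  apply Subtype.ext
  show coeffMap (τ : Qb →+* Qb) (s18dUp (mrgfE0 H E) (x : LaurentSeries (mrgfE0 H E))) =
    s18dUp (mrgfE0 H E) (x : LaurentSeries (mrgfE0 H E))
  unfold s18dUp
  rw [coeffMap_coeffMap]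
  exact coeffMap_congr (RingHom.ext fun c => ((mem_mrgfE0 H E).1 c.2).2 τ hτ) _

set_option maxHeartbeats 1000000 in
/-- **THE DESCENT OF AN `H`-FIXED KUMMER CLASS** : `g ∈ F_ℚ̄(N)ˣ` with `τ g / g ∈ (F_ℚ̄(N)ˣ)ⁿ` for every
`τ ∈ H` ⟹ `c g bⁿ ∈ F_L` for some `c ∈ ℚ̄ˣ`, `b ∈ F_ℚ̄(N)ˣ`. -/
theorem mrg_descend (n : ℕ) (hn : n ≠ 0) (g : modularFunctionFieldBar N) (hg : g ≠ 0)
    (hfix : ∀ τ ∈ H, ∃ h : modularFunctionFieldBar N, ssGal N τ g = g * h ^ n) :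
    ∃ (f b : modularFunctionFieldBar N) (c : Qb), f ∈ mrgFL N H ∧ b ≠ 0 ∧ c ≠ 0 ∧
      f = algebraMap Qb (modularFunctionFieldBar N) c * g * b ^ n := by
  classical
  haveI halg : Algebra.IsAlgebraic ℚ Qb := AlgebraicClosure.isAlgebraic ℚ
  haveI hcl : IsAlgClosure ℚ Qb := AlgebraicClosure.instIsAlgClosure ℚ
  haveI hnormQb : Normal ℚ Qb := IsAlgClosure.normal ℚ Qb
  obtain ⟨E₂, hE₂, hmod2⟩ := ssdr_exists_model N g
  haveI := hE₂
  obtain ⟨E₃, hE₃def⟩ : ∃ E₃ : IntermediateField ℚ Qb,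
      E₃ = IntermediateField.normalClosure ℚ E₂ Qb := ⟨_, rfl⟩
  have hE₂E₃ : E₂ ≤ E₃ := hE₃def ▸ IntermediateField.le_normalClosure E₂
  haveI hfd₃ : FiniteDimensional ℚ E₃ := by
    rw [hE₃def]; exact normalClosure.is_finiteDimensional ℚ E₂ Qb
  haveI hn₃ : Normal ℚ E₃ := by
    rw [hE₃def]; exact normalClosure.normal ℚ E₂ Qb
  obtain ⟨g₃, hg₃⟩ := hmod2 E₃ hE₂E₃
  haveI : Fintype ↥(mrgfH H E₃) := Fintype.ofFinite _
  have hch : ∀ τ : ↥(mrgfH H E₃), ∃ (σ : Qb ≃ₐ[ℚ] Qb) (h : modularFunctionFieldBar N),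
      σ ∈ H ∧ σ.restrictNormal E₃ = (τ : E₃ ≃ₐ[ℚ] E₃) ∧
        ssGal N σ g = g * h ^ n := by
    intro τ
    obtain ⟨σ, hσ, hστ⟩ := τ.2
    obtain ⟨h, hh⟩ := hfix σ hσ
    exact ⟨σ, h, hσ, hστ, hh⟩
  choose sg hbar hsgI hsgτ hhbar using hch
  obtain ⟨E₄, hE₄, hmod⟩ := ssdr_exists_model_finset N (Finset.univ.image hbar)
  haveI := hE₄
  haveI : FiniteDimensional ℚ (E₃ ⊔ E₄ : IntermediateField ℚ Qb) :=
    IntermediateField.finiteDimensional_sup E₃ E₄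
  obtain ⟨E, hEdef⟩ : ∃ E : IntermediateField ℚ Qb,
      E = IntermediateField.normalClosure ℚ (E₃ ⊔ E₄ : IntermediateField ℚ Qb) Qb := ⟨_, rfl⟩
  have hE : E₃ ⊔ E₄ ≤ E := hEdef ▸ IntermediateField.le_normalClosure _
  haveI hfdE : FiniteDimensional ℚ E := by
    rw [hEdef]; exact normalClosure.is_finiteDimensional ℚ _ Qb
  haveI hnE : Normal ℚ E := by
    rw [hEdef]; exact normalClosure.normal ℚ _ Qb
  have hE₃E : E₃ ≤ E := le_sup_left.trans hE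
  have hE₄E : E₄ ≤ E := le_sup_right.trans hE
  obtain ⟨gE, hgE⟩ := hmod2 E (hE₂E₃.trans hE₃E)
  have hgE0 : gE ≠ 0 := by
    rintro rfl
    rw [map_zero] at hgE
    exact hg hgE.symm
  -- the hypothesis of the descent at level `E`
  have hfixE : ∀ τ' ∈ mrgfH H E, ∃ h : modularFunctionFieldFullC E N,
      ssdAutRing E N τ' gE = gE * h ^ n := by
    rintro τ' ⟨σ, hσ, rfl⟩
    obtain ⟨τ, hτ⟩ : ∃ τ : ↥(mrgfH H E₃), (τ : E₃ ≃ₐ[ℚ] E₃) = σ.restrictNormal E₃ :=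
      ⟨⟨σ.restrictNormal E₃, mem_mrgfH H E₃ hσ⟩, rfl⟩
    obtain ⟨hE', hhE'⟩ := hmod E hE₄E (hbar τ) (Finset.mem_image_of_mem _ (Finset.mem_univ _))
    refine ⟨hE', ?_⟩
    apply ssdUp_injective E N
    rw [map_mul, map_pow, hhE', hgE]
    have h1 : ssdUp E N (ssdAutRing E N (σ.restrictNormal E) gE) = ssGal N σ g := by
      rw [← hgE]; exact ssdUp_aut E N σ gE
    have h2 : ssGal N σ g = ssGal N (sg τ) g := by
      rw [← hg₃]
      have e1 : ssdUp E₃ N (ssdAutRing E₃ N (σ.restrictNormal E₃) g₃) =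
          ssGal N σ (ssdUp E₃ N g₃) := ssdUp_aut E₃ N σ g₃
      have e2 : ssdUp E₃ N (ssdAutRing E₃ N ((sg τ).restrictNormal E₃) g₃) =
          ssGal N (sg τ) (ssdUp E₃ N g₃) := ssdUp_aut E₃ N (sg τ) g₃
      rw [hsgτ τ, hτ] at e2
      exact e1.symm.trans e2
    exact h1.trans (h2.trans (hhbar τ))
  obtain ⟨f, b, hb0, hf⟩ := mrg_descend_E H E N n hn gE hgE0 hfixE
  have hc0 : sqdLc E N gE ≠ 0 := sqdLc_ne_zero E N hgE0
  refine ⟨ssdUp (mrgfE0 H E) N f, ssdUp E N b, algebraMap E Qb (sqdLc E N gE)⁻¹,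
    mrg_up_mem_FL H E N f, ?_, ?_, ?_⟩
  · exact (map_ne_zero_iff _ (ssdUp_injective E N)).2 hb0
  · rw [Ne, map_eq_zero]; exact inv_ne_zero hc0
  · rw [← mrgf_up_iota, hf]
    unfold sqdNorm
    rw [map_mul, map_mul, map_pow, ssdUp_algebraMap, hgE]

end Fermat.Agent.MR
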