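import Mathlib
import Fermat.Agent.MR.Gal.DescendE
import Fermat.Agent.G.FF.Hecke

/-!
# PROGRAM MR (S44), block `mrg` (owner helper9) : **LEAF (mrg-2) = `MrgDescentSpec`, PROVED**

An `H`-fixed `n`-torsion class `x ∈ J₀(N)` killed by `(σ - 1)²` (`σ` normalising `H`) has
* an `H`-invariant representative `D` of degree `0`,
* a Kummer function `f ∈ F_L = F^H` with `div f = n D` (`mrg_descend` + `sqd_hfix_of_class`),
* a function `h₂ ∈ F_L` with `div h₂ = (σ - 1)² D` (normalised by its leading coefficient at `∞`).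
-/

set_option autoImplicit false
set_option linter.unusedSectionVars false
set_option linter.unusedVariables false
set_option linter.style.haveILetI false
set_option synthInstance.maxHeartbeats 400000

noncomputable section

namespace Fermat.Agent.MR

open Polynomial ModularCurve AlgebraicCurve IntermediateField Fermat.Agent.S18 Fermat.Agent.SS
  Fermat.Agent.S24 Fermat.Agent.SQ Fermat.Agent.FF Fermat.Agent.G

local notation "Qb" => AlgebraicClosure ℚ
local notation "GQ" => (AlgebraicClosure ℚ ≃ₐ[ℚ] AlgebraicClosure ℚ)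

variable (N : ℕ) [NeZero N] (H : Subgroup GQ)

/-- a function whose divisor is `H`-invariant and whose leading coefficient at `∞` is `1` is
`H`-invariant. -/
theorem mrg_fixed_of_div_fixed {h : modularFunctionFieldBar N} (h0 : h ≠ 0)
    (hlc : sqdLcB N h = 1) (τ : GQ)
    (hdiv : ∀ w : Place Qb (modularFunctionFieldBar N), ((ffipG N τ)⁻¹ • w).ord h = w.ord h) :
    ffipG N τ • h = h := by
  have hτh0 : ffipG N τ • h ≠ 0 := sstk_smul_ne_zero _ h0
  obtain ⟨u, hu⟩ : ∃ u, u = ffipG N τ • h / h := ⟨_, rfl⟩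
  have hord : ∀ w : Place Qb (modularFunctionFieldBar N), w.ord u = 0 := by
    intro w
    rw [hu, div_eq_mul_inv, w.ord_mul hτh0 (inv_ne_zero h0), w.ord_inv, sstk_ord_smul,
      hdiv w, add_neg_cancel]
  obtain ⟨c, hc⟩ := s18ac_const_of_isSepGen (modularFunctionFieldBar N) (isSepGen_jBar N) u hord
  have hτlc : sqdLcB N (ffipG N τ • h) = 1 := by
    have := sqdLcB_gal N τ h
    rw [hlc, map_one] at this
    exact this
  have h1 : ffipG N τ • h = u * h := by rw [hu, div_mul_cancel₀ _ h0]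
  have hc1 : c = 1 := by
    have h2 := congrArg (sqdLcB N) h1
    rw [sqdLcB_mul, hτlc, hlc, mul_one, hc, sqdLcB_algebraMap] at h2
    exact h2.symm
  rw [h1, hc, hc1, map_one, one_mul]

/-- normalisation by the leading coefficient. -/
theorem mrg_exists_normalised {h : modularFunctionFieldBar N} (h0 : h ≠ 0) :
    ∃ h' : modularFunctionFieldBar N, h' ≠ 0 ∧ sqdLcB N h' = 1 ∧
      ∀ w : Place Qb (modularFunctionFieldBar N), w.ord h' = w.ord h := by
  have hc0 : sqdLcB N h ≠ 0 := sqdLcB_ne_zero N h0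
  have ha0 : algebraMap Qb (modularFunctionFieldBar N) (sqdLcB N h)⁻¹ ≠ 0 := by
    rw [Ne, map_eq_zero]; exact inv_ne_zero hc0
  refine ⟨algebraMap Qb (modularFunctionFieldBar N) (sqdLcB N h)⁻¹ * h, mul_ne_zero ha0 h0, ?_,
    fun w => ?_⟩
  · rw [sqdLcB_mul, sqdLcB_algebraMap, inv_mul_cancel₀ hc0]
  · rw [w.ord_mul ha0 h0, PlaceOrd.ord_algebraMap, zero_add]

variable {N H}

/-- conjugation : `τ σ = σ (σ⁻¹ τ σ)` on divisors. -/
theorem mrg_smul_comm (σ τ : GQ) (D : Divisor Qb (modularFunctionFieldBar N)) :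
    ffipG N τ • (ffipG N σ • D) = ffipG N σ • (ffipG N (σ⁻¹ * τ * σ) • D) := by
  rw [← mul_smul, ← mul_smul, ffipG, ffipG, ffipG, ← map_mul, ← map_mul]
  congr 2
  group

theorem mrg_conj_mem {σ : GQ} (hconj : ∀ τ : GQ, σ * τ * σ⁻¹ ∈ H ↔ τ ∈ H) {τ : GQ} (hτ : τ ∈ H) :
    σ⁻¹ * τ * σ ∈ H := by
  rw [← hconj]
  have e : σ * (σ⁻¹ * τ * σ) * σ⁻¹ = τ := by group
  rw [e]; exact hτ

/-- `(σ - 1)² D` is `H`-invariant if `D` is and `σ` normalises `H`. -/
theorem mrg_D2_fixed {σ : GQ} (hconj : ∀ τ : GQ, σ * τ * σ⁻¹ ∈ H ↔ τ ∈ H)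
    {D : Divisor Qb (modularFunctionFieldBar N)} (hD : ∀ τ ∈ H, ffipG N τ • D = D)
    {τ : GQ} (hτ : τ ∈ H) : ffipG N τ • mrgD2 σ D = mrgD2 σ D := by
  have h1 : σ⁻¹ * τ * σ ∈ H := mrg_conj_mem hconj hτ
  have h2 : σ⁻¹ * (σ⁻¹ * τ * σ) * σ ∈ H := mrg_conj_mem hconj h1
  unfold mrgD2
  rw [smul_add, smul_sub, smul_comm (ffipG N τ) (2 : ℤ), mrg_smul_comm σ τ D, hD _ h1,
    mrg_smul_comm σ τ (ffipG N σ • D), mrg_smul_comm σ (σ⁻¹ * τ * σ) D, hD _ h2, hD τ hτ]

variable (N H)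

set_option maxHeartbeats 1000000 in
/-- **LEAF (mrg-2) = `MrgDescentSpec`, PROVED.** -/
theorem mrg_descent (σ : GQ) (n : ℕ) : MrgDescentSpec N H σ n := by
  intro hn hconj x hx hfix hσx
  classical
  obtain ⟨D₀, rfl⟩ := Pic0.mk_surjective x
  obtain ⟨g, hg0, hgD⟩ := sstk_exists_fun D₀ n hx
  obtain ⟨f, b, c, hfL, hb0, hc0, hfeq⟩ := mrg_descend H N n hn g hg0
    (fun τ hτ => sqd_hfix_of_class N τ D₀ n hn g hg0 hgD (hfix τ hτ))
  haveI := gff_hasPrincipalDivisors N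
  obtain ⟨Db, hDb, hDbdeg⟩ := HasPrincipalDivisors.exists_divisor (K := Qb) b hb0
  obtain ⟨D, hD⟩ : ∃ D : Divisor.degZero (K := Qb) (F := modularFunctionFieldBar N),
      D = D₀ + ⟨Db, hDbdeg⟩ := ⟨_, rfl⟩
  have hxD : (Pic0.mk D₀ : JZero N) = Pic0.mk D := by
    rw [hD, Pic0.mk_add]
    have h0 : Pic0.mk (⟨Db, hDbdeg⟩ :
        Divisor.degZero (K := Qb) (F := modularFunctionFieldBar N)) = 0 := by
      refine (QuotientAddGroup.eq_zero_iff _).2 ?_
      rw [AddSubgroup.mem_addSubgroupOf]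
      exact ⟨b, hb0, hDb⟩
    rw [h0, add_zero]
  have hac0 : algebraMap Qb (modularFunctionFieldBar N) c ≠ 0 := by
    rw [Ne, map_eq_zero]; exact hc0
  have hf0 : f ≠ 0 := by
    rw [hfeq]; exact mul_ne_zero (mul_ne_zero hac0 hg0) (pow_ne_zero n hb0)
  have hfD : ∀ w : Place Qb (modularFunctionFieldBar N),
      w.ord f = (n : ℤ) * (D : Divisor Qb (modularFunctionFieldBar N)) w := by
    intro w
    rw [hfeq, w.ord_mul (mul_ne_zero hac0 hg0) (pow_ne_zero n hb0), w.ord_mul hac0 hg0,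
      PlaceOrd.ord_algebraMap, zero_add, ← zpow_natCast, w.ord_zpow, hgD w, hD]
    simp only [AddSubgroup.coe_add, Finsupp.coe_add, Pi.add_apply]
    rw [hDb w]
    ring
  have hn' : (n : ℤ) ≠ 0 := by exact_mod_cast hn
  -- `D` is `H`-invariant
  have hDfix : ∀ τ ∈ H, ffipG N τ • (D : Divisor Qb (modularFunctionFieldBar N)) = D := by
    intro τ hτ
    ext w
    rw [SemilinearAut.divisor_smul_apply]
    apply mul_left_cancel₀ hn'
    rw [← hfD, ← hfD, ← sstk_ord_smul, hfL τ hτ]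
  -- the class of `(σ - 1)² D` is trivial
  obtain ⟨s, hs⟩ : ∃ s, s = arithmeticGalois (modularFunctionFieldFull N) σ := ⟨_, rfl⟩
  obtain ⟨D2, hD2⟩ : ∃ D2 : Divisor.degZero (K := Qb) (F := modularFunctionFieldBar N),
      D2 = SemilinearAut.degZeroSMulHom s (SemilinearAut.degZeroSMulHom s D) -
        (2 : ℤ) • SemilinearAut.degZeroSMulHom s D + D := ⟨_, rfl⟩
  have hD2coe : (D2 : Divisor Qb (modularFunctionFieldBar N)) =
      mrgD2 σ (D : Divisor Qb (modularFunctionFieldBar N)) := by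
    rw [hD2, hs]
    rfl
  have hD2cl : (Pic0.mk D2 : JZero N) = 0 := by
    rw [hxD] at hσx
    have e1 : σ • (Pic0.mk D : JZero N) = Pic0.mk (SemilinearAut.degZeroSMulHom s D) := by
      rw [hs]; rfl
    have e2 : σ • (Pic0.mk (SemilinearAut.degZeroSMulHom s D) : JZero N) =
        Pic0.mk (SemilinearAut.degZeroSMulHom s (SemilinearAut.degZeroSMulHom s D)) := by
      rw [hs]; rfl
    rw [e1, e2] at hσx
    rw [hD2]
    exact hσx
  have hprin : (D2 : Divisor Qb (modularFunctionFieldBar N)) ∈ Divisor.principal := by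
    have := (QuotientAddGroup.eq_zero_iff _).mp hD2cl
    rwa [AddSubgroup.mem_addSubgroupOf] at this
  obtain ⟨h, hh0, hhD⟩ := hprin
  obtain ⟨h₂, hh₂0, hlc, hord⟩ := mrg_exists_normalised N hh0
  have hh₂D : ∀ w : Place Qb (modularFunctionFieldBar N),
      w.ord h₂ = mrgD2 σ (D : Divisor Qb (modularFunctionFieldBar N)) w := by
    intro w
    rw [hord w, ← hhD w, hD2coe]
  refine ⟨D, f, h₂, hxD, hDfix, hfL, hf0, hfD, ?_, hh₂0, hh₂D⟩
  intro τ hτ
  apply mrg_fixed_of_div_fixed N hh₂0 hlc τ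
  intro w
  rw [hh₂D, hh₂D, ← SemilinearAut.divisor_smul_apply, mrg_D2_fixed hconj hDfix hτ]

end Fermat.Agent.MR
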