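import Mathlib
import Fermat.Agent.MR.Gal.Out
import Fermat.Agent.FF.InertiaRing
import Fermat.Agent.TT.Alpha.Norm

/-!
# PROGRAM MR (S44), block `mrg` (owner helper9) : THE `mrg` FIELDS OF helper12's `MrrModel`, VERBATIM
(prefix `mrg_rigid_`)

With `K = ℚ̄`, `F = F_ℚ̄(M p)`, `V₁ = ttrV1 M 𝔸 hpM h𝔸`, `V₂ = ttraV2 M 𝔸 hpM h𝔸`,
`σ := ffipG (M p) σ`, `FL := mrgFL (M p) H`, `ϖ := π` :
the fields `ϖ_mem ϖ_ne ϖ_FL σ_FL vg₁ vg₂ res move₁ move₂` of `MrrModel` (`MR/Rigid/Spec.lean`), each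
in the literal shape of that structure, from `MrgP1 𝔸 H σ π` (+ `H ≤ I` for `res`).
-/

set_option autoImplicit false
set_option linter.unusedSectionVars false
set_option linter.unusedVariables false
set_option linter.style.haveILetI false
set_option synthInstance.maxHeartbeats 400000

noncomputable section

namespace Fermat.Agent.MR

open Polynomial ModularCurve AlgebraicCurve IsLocalRing IntermediateField
  Fermat.Agent.G Fermat.Agent.S18 Fermat.Agent.SS Fermat.Agent.FF Fermat.Agent.TT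
  Fermat.Agent.S05

local notation "Qb" => AlgebraicClosure ℚ
local notation "GQ" => (AlgebraicClosure ℚ ≃ₐ[ℚ] AlgebraicClosure ℚ)

variable {M : ℕ} [NeZero M] {p : ℕ} [Fact p.Prime] [NeZero p]
variable {A : ValuationSubring Qb} (hpM : ¬ p ∣ M) (hA : A.LiesOverPrime p)
variable {H : Subgroup GQ} {σ : GQ} {π : Qb}

/-- field `ϖ_mem`. -/
theorem mrg_rigid_ϖ_mem (hP : MrgP1 A H σ π) : π ∈ A.nonunits := by
  rw [ValuationSubring.mem_nonunits_iff_or]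
  exact Or.inr hP.pi_nonunit

/-- field `ϖ_FL`. -/
theorem mrg_rigid_ϖ_FL (N : ℕ) [NeZero N] (hP : MrgP1 A H σ π) :
    algebraMap Qb (modularFunctionFieldBar N) π ∈ mrgFL N H :=
  (mrg_stable N hP.conj hP.pi_fix).2

/-- field `σ_FL`. -/
theorem mrg_rigid_σ_FL (N : ℕ) [NeZero N] (hP : MrgP1 A H σ π) :
    ∀ f ∈ mrgFL N H, ffipG N σ • f ∈ mrgFL N H :=
  (mrg_stable N hP.conj hP.pi_fix).1

theorem mrg_isU_of_vg {N : ℕ} [NeZero N] {V : ValuationSubring (modularFunctionFieldBar N)}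
    (h : MrgVG N H π V) :
    ∀ f ∈ mrgFL N H, f ≠ 0 → ∃ n : ℤ,
      TtalIsU V (algebraMap Qb (modularFunctionFieldBar N) π ^ n * f) := by
  intro f hf hf0
  obtain ⟨n, h1, h2⟩ := h f hf hf0
  refine ⟨-n, ?_, ?_⟩
  · rw [mul_comm]; exact h1
  · rw [mul_comm]; exact h2

/-- field `vg₁`. -/
theorem mrg_rigid_vg₁ (hP : MrgP1 A H σ π) :
    ∀ f ∈ mrgFL (M * p) H, f ≠ 0 → ∃ n : ℤ, TtalIsU (ttrV1 M A hpM hA)
      (algebraMap Qb (modularFunctionFieldBar (M * p)) π ^ n * f) :=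
  mrg_isU_of_vg (mrg_out hpM hA hP).2.1

/-- field `vg₂`. -/
theorem mrg_rigid_vg₂ (hP : MrgP1 A H σ π) :
    ∀ f ∈ mrgFL (M * p) H, f ≠ 0 → ∃ n : ℤ, TtalIsU (ttraV2 M A hpM hA)
      (algebraMap Qb (modularFunctionFieldBar (M * p)) π ^ n * f) :=
  mrg_isU_of_vg (mrg_out hpM hA hP).2.2.1

theorem mrg_move_exists {N : ℕ} [NeZero N] {V : ValuationSubring (modularFunctionFieldBar N)}
    (hπ0 : π ≠ 0) (h : MrgMove N H σ π V) :
    ∀ f ∈ mrgFL N H, f ∈ V → ∃ y ∈ V,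
      ffipG N σ • f - f = algebraMap Qb (modularFunctionFieldBar N) π ^ 2 * y := by
  intro f hf hfV
  refine ⟨_, h f hf hfV, ?_⟩
  have h0 : algebraMap Qb (modularFunctionFieldBar N) π ^ 2 ≠ 0 := by
    apply pow_ne_zero
    rw [Ne, map_eq_zero]; exact hπ0
  rw [mul_div_cancel₀ _ h0]

/-- field `move₁`. -/
theorem mrg_rigid_move₁ (hP : MrgP1 A H σ π) :
    ∀ f ∈ mrgFL (M * p) H, f ∈ ttrV1 M A hpM hA → ∃ y ∈ ttrV1 M A hpM hA,
      ffipG (M * p) σ • f - f = algebraMap Qb (modularFunctionFieldBar (M * p)) π ^ 2 * y :=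
  mrg_move_exists hP.pi_ne (mrg_out hpM hA hP).2.2.2.1

/-- field `move₂`. -/
theorem mrg_rigid_move₂ (hP : MrgP1 A H σ π) :
    ∀ f ∈ mrgFL (M * p) H, f ∈ ttraV2 M A hpM hA → ∃ y ∈ ttraV2 M A hpM hA,
      ffipG (M * p) σ • f - f = algebraMap Qb (modularFunctionFieldBar (M * p)) π ^ 2 * y :=
  mrg_move_exists hP.pi_ne (mrg_out hpM hA hP).2.2.2.2.1

include hA in
/-- field `res` : `O_L → k` is onto as soon as `H ≤ I` (Teichmüller lifts in `W = 𝔸^I ⊆ O_L`). -/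
theorem mrg_rigid_res (N : ℕ) [NeZero N] (hHI : H ≤ A.inertiaSubgroupIn ℚ) :
    ∀ c : ResidueField A, ∃ a : A,
      algebraMap Qb (modularFunctionFieldBar N) (a : Qb) ∈ mrgFL N H ∧ residue A a = c := by
  intro c
  obtain ⟨a, rfl⟩ := residue_surjective c
  obtain ⟨w, hw, hsub⟩ := ffiw_residue_surjective A hA a.2
  refine ⟨⟨w, hw.1⟩, fun τ hτ => ?_, ?_⟩
  · rw [ffipG_algebraMap]
    show algebraMap Qb (modularFunctionFieldBar N) (τ w) = _
    rw [hw.2 τ (hHI hτ)]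
  · rw [eq_comm, ← sub_eq_zero, ← map_sub, residue_eq_zero_iff]
    exact (ValuationSubring.coe_mem_nonunits_iff (A := A)).mp hsub

end Fermat.Agent.MR
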