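import Mathlib
import Fermat.Agent.MR.Gal.ToRigid
import Fermat.Agent.MR.Gal.Descent
import Fermat.Agent.MR.Spec

/-!
# PROGRAM MR (S44), block `mrg` (owner helper9) : `mrg` AT THE TOP-LEVEL LITERALS OF `MR/Spec.lean`
(prefix `mrg`; imports helper16's `MR/Spec.lean`)

The J-side holds `V ≤ J₀(M p)` (`I`-stable, `MraShape p 𝔸 V`), `H := mraH 𝔸 V = Stab(V) ⊓ I`,
`σ ∈ mraI0 p 𝔸`, `σ ∉ H`, and `P : MraP1At p 𝔸 H σ π c`.  From exactly these :

* `mrg_conj_of_stable`   : `σ` normalises `H` (`MrgP1.conj`);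
* `mrg_P1_of_top`, `mrg_break_of_top` : `MrgP1 𝔸 H σ π`, `MrgBreak 𝔸 H σ π`;
* `mrg_out_of_top`       : `MrgOut` = (VG), (MOVE) at `V₁`, `V₂` + stability of `F_L`;
* `mrg_sq_zero_of_shape` : `(σ - 1)² x = 0` for `x ∈ V` (from `MraShape`, `σ ∈ I₀`);
* `mrg_descent_of_top`   : DESCENT for every `x ∈ V` : `H`-invariant `D`, Kummer function `f ∈ F_L`,
  `h₂ ∈ F_L` with `div h₂ = (σ - 1)² D`.
-/

set_option autoImplicit false
set_option linter.unusedSectionVars false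
set_option linter.unusedVariables false
set_option linter.style.haveILetI false
set_option synthInstance.maxHeartbeats 400000

noncomputable section

namespace Fermat.Agent.MR

open Polynomial ModularCurve AlgebraicCurve IsLocalRing IntermediateField
  Fermat.Agent.G Fermat.Agent.S18 Fermat.Agent.SS Fermat.Agent.FF Fermat.Agent.TT
  Fermat.Agent.S05

local notation "Qb" => AlgebraicClosure ℚ
local notation "GQ" => (AlgebraicClosure ℚ ≃ₐ[ℚ] AlgebraicClosure ℚ)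

section General

variable {A : ValuationSubring Qb} {X : Type} [AddCommGroup X] [DistribMulAction GQ X]
variable {V : AddSubgroup X} {σ : GQ} {π c : Qb} {q : ℕ}

/-- `σ ∈ I` normalises `H = Stab(V) ⊓ I` when `V` is `I`-stable. -/
theorem mrg_conj_of_stable (hstab : ∀ g ∈ ffI A, ∀ x ∈ V, g • x ∈ V) (hσ : σ ∈ ffI A) (τ : GQ) :
    σ * τ * σ⁻¹ ∈ mraH A V ↔ τ ∈ mraH A V := by
  have key : ∀ {g : GQ}, g ∈ ffI A → ∀ {τ : GQ}, τ ∈ mraH A V → g * τ * g⁻¹ ∈ mraH A V := by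
    intro g hg τ hτ
    have hτ' := Subgroup.mem_inf.1 hτ
    refine Subgroup.mem_inf.2 ⟨fun x hx => ?_, mul_mem (mul_mem hg hτ'.2) (inv_mem hg)⟩
    rw [mul_smul, mul_smul, hτ'.1 _ (hstab _ (inv_mem hg) x hx), smul_inv_smul]
  refine ⟨fun h => ?_, fun h => key hσ h⟩
  have h1 := key (inv_mem hσ) h
  have e : σ⁻¹ * (σ * τ * σ⁻¹) * σ⁻¹⁻¹ = τ := by group
  rwa [e] at h1

/-- **`MraP1At ⟹ MrgP1`.** -/
theorem mrg_P1_of_top (hstab : ∀ g ∈ ffI A, ∀ x ∈ V, g • x ∈ V) (hσ : σ ∈ ffI A)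
    (P : MraP1At q A (mraH A V) σ π c) : MrgP1 A (mraH A V) σ π where
  inertial := hσ
  conj := mrg_conj_of_stable hstab hσ
  pi_fix := P.fix
  pi_ne := P.ne
  pi_mem := (A.valuation_le_one_iff _).mp P.lt.le
  pi_nonunit := by
    intro h
    have h1 := (A.valuation_le_one_iff _).mpr h
    rw [map_inv₀] at h1
    have hv0 : A.valuation π ≠ 0 := (A.valuation.ne_zero_iff).mpr P.ne
    have h2 : 1 ≤ A.valuation π := (inv_le_one₀ (zero_lt_iff.mpr hv0)).mp h1
    exact absurd P.lt (not_lt.mpr h2)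
  unif := by
    intro y hy hy0
    have hv0 : A.valuation π ≠ 0 := (A.valuation.ne_zero_iff).mpr P.ne
    obtain ⟨n, hn⟩ := P.vg y hy hy0
    have hv : A.valuation (y * π ^ (-n)) = 1 := by
      rw [map_mul, map_zpow₀, hn, ← zpow_add₀ hv0, add_neg_cancel, zpow_zero]
    refine ⟨n, (A.valuation_le_one_iff _).mp hv.le, (A.valuation_le_one_iff _).mp ?_⟩
    rw [map_inv₀, hv, inv_one]
  triv := by
    intro y hy hyA
    have hv0 : A.valuation π ≠ 0 := (A.valuation.ne_zero_iff).mpr P.ne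
    rw [← A.valuation_le_one_iff, map_div₀, map_pow]
    exact (div_le_one₀ (zero_lt_iff.mpr (pow_ne_zero 2 hv0))).mpr (P.triv y hy hyA)

/-- **`MraP1At ⟹ MrgBreak`.** -/
theorem mrg_break_of_top (hH : mraH A V ≤ ffI A) (P : MraP1At q A (mraH A V) σ π c) :
    MrgBreak A (mraH A V) σ π := by
  have hv0 : A.valuation π ≠ 0 := (A.valuation.ne_zero_iff).mpr P.ne
  refine ⟨c, fun τ hτ => P.cW.2 τ (hH hτ), (A.valuation_le_one_iff _).mp P.cu.le,
    (A.valuation_le_one_iff _).mp ?_, ?_⟩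
  · rw [map_inv₀, P.cu, inv_one]
  · have e : σ π - π - c * π ^ 2 = σ π - π * (1 + c * π) := by ring
    rw [e, ← A.valuation_le_one_iff, map_div₀, map_pow]
    exact (div_le_one₀ (zero_lt_iff.mpr (pow_ne_zero 3 hv0))).mpr P.pic

theorem mrg_mraH_le : mraH A V ≤ ffI A := inf_le_right

/-- `(σ - 1)² x = 0` on `V` for `σ ∈ I₀`, from the shape `(ε *; 0 1)`. -/
theorem mrg_sq_zero_of_shape (hshape : MraShape q A V) (hσ : σ ∈ mraI0 q A) {x : X}
    (hx : x ∈ V) : σ • (σ • x) - (2 : ℤ) • (σ • x) + x = 0 := by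
  obtain ⟨-, V', -, -, hsub, hchar⟩ := hshape
  have hy : σ • x - x ∈ V' := hsub σ hσ.1 x hx
  have hfix : σ • (σ • x - x) = σ • x - x := by
    have h := hchar σ hσ.1 1 (fun ζ hζ => by rw [pow_one]; exact hσ.2 ζ hζ) _ hy
    rwa [one_smul] at h
  rw [smul_sub] at hfix
  have e : σ • (σ • x) - (2 : ℤ) • (σ • x) + x = (σ • σ • x - σ • x) - (σ • x - x) := by
    rw [two_zsmul]; abel
  rw [e, hfix, sub_self]

end General

section Level

variable {M : ℕ} [NeZero M] {p : ℕ} [Fact p.Prime] [NeZero p]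
variable {A : ValuationSubring Qb} (hpM : ¬ p ∣ M) (hA : A.LiesOverPrime p)
variable {V : AddSubgroup (JZero (M * p))} {σ : GQ} {π c : Qb}

/-- **the output of `mrg` for the J-side**, at `H = mraH 𝔸 V`. -/
theorem mrg_out_of_top (hstab : ∀ g ∈ ffI A, ∀ x ∈ V, g • x ∈ V) (hσ : σ ∈ ffI A)
    (P : MraP1At p A (mraH A V) σ π c) : MrgOut M A hpM hA (mraH A V) σ π :=
  mrg_out hpM hA (mrg_P1_of_top hstab hσ P)

/-- **DESCENT for the J-side** : every `x ∈ V` has an `H`-invariant representative `D`, a Kummer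
function `f ∈ F_L` and `h₂ ∈ F_L` with `div h₂ = (σ - 1)² D`. -/
theorem mrg_descent_of_top (htors : ∀ x ∈ V, p • x = 0)
    (hstab : ∀ g ∈ ffI A, ∀ x ∈ V, g • x ∈ V) (hshape : MraShape p A V) (hσ : σ ∈ mraI0 p A)
    {x : JZero (M * p)} (hx : x ∈ V) :
    ∃ (D : Divisor.degZero (K := Qb) (F := modularFunctionFieldBar (M * p)))
      (f h₂ : modularFunctionFieldBar (M * p)),
      x = Pic0.mk D ∧
      (∀ τ ∈ mraH A V, ffipG (M * p) τ • (D : Divisor Qb (modularFunctionFieldBar (M * p))) = D) ∧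
      f ∈ mrgFL (M * p) (mraH A V) ∧ f ≠ 0 ∧
      (∀ v : Place Qb (modularFunctionFieldBar (M * p)),
        v.ord f = (p : ℤ) * (D : Divisor Qb (modularFunctionFieldBar (M * p))) v) ∧
      h₂ ∈ mrgFL (M * p) (mraH A V) ∧ h₂ ≠ 0 ∧
      (∀ v : Place Qb (modularFunctionFieldBar (M * p)),
        v.ord h₂ = mrgD2 σ (D : Divisor Qb (modularFunctionFieldBar (M * p))) v) :=
  mrg_descent (M * p) (mraH A V) σ p (NeZero.ne p) (mrg_conj_of_stable hstab hσ.1) x
    (htors x hx) (fun τ hτ => (Subgroup.mem_inf.1 hτ).1 x hx) (mrg_sq_zero_of_shape hshape hσ hx)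

end Level

end Fermat.Agent.MR
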